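import Fermat.Agent.LePage.Contraction
import Fermat.Agent.ProjectiveStationary.Equidistribution

/-!
# Geometric ergodicity

Contraction of the distance makes the iterates of the averaging operator on a Hölder function tend
geometrically, and uniformly in the direction, to the stationary mean.
-/

set_option autoImplicit false

noncomputable section

namespace FA.LePage

open MeasureTheory Filter Topology Module Set
open FA.FurstenbergLyapunov FA.FurstenbergKifer FA.GuivarchRaugi FA.ProjectiveStationary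
open scoped BoundedContinuousFunction

variable {E : Type*} [NormedAddCommGroup E] [InnerProductSpace ℝ E] [FiniteDimensional ℝ E]
  [MeasurableSpace E] [BorelSpace E] [Nontrivial E]

/-- The power `α` of the distance contracts at the rate `r`. -/
def Contracts (μ : Measure (E →L[ℝ] E)) (α C r : ℝ) : Prop :=
  ∀ (n : ℕ) (v w : Sph E),
    ∫ x, sineDist (act (randProd n x) v) (act (randProd n x) w) ^ α
      ∂(Measure.infinitePi fun _ : ℕ => μ) ≤ C * r ^ n * sineDist v w ^ α

/-- Hölder for the distance of lines. -/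
def HolderProj (φ : Sph E → ℝ) (L α : ℝ) : Prop :=
  ∀ v w, |φ v - φ w| ≤ L * sineDist v w ^ α

variable {μ : Measure (E →L[ℝ] E)} [IsProbabilityMeasure μ] {α C r L : ℝ}

theorem abs_iterate_sub_le (hμ : ∀ᵐ A ∂μ, A ∈ unitDet E) (hc : Contracts μ α C r) (hα : 0 ≤ α)
    (hL : 0 ≤ L) {φ : Sph E →ᵇ ℝ} (hφ : HolderProj φ L α) (n : ℕ) (v w : Sph E) :
    |(stepOp hμ)^[n] φ v - (stepOp hμ)^[n] φ w| ≤ L * (C * r ^ n * sineDist v w ^ α) := by
  set π := Measure.infinitePi fun _ : ℕ => μ
  have hi : ∀ u : Sph E, Integrable (fun x => φ (act (randProd n x) u)) π := fun u =>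
    Integrable.of_bound (φ.continuous.measurable.comp
      (measurable_act_pair (measurable_randProd n) measurable_const)).aestronglyMeasurable ‖φ‖
      (.of_forall fun _ => φ.norm_coe_le_norm _)
  have hd : Integrable
      (fun x => sineDist (act (randProd n x) v) (act (randProd n x) w) ^ α) π :=
    Integrable.of_bound
      (measurable_distPow (measurable_randProd n) measurable_const measurable_const α
        ).aestronglyMeasurable 1 (.of_forall fun x => by
      rw [Real.norm_of_nonneg (Real.rpow_nonneg (sineDist_nonneg _ _) _)]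
      exact Real.rpow_le_one (sineDist_nonneg _ _) (sineDist_le_one _ _) hα)
  rw [stepOp_iterate_apply μ hμ, stepOp_iterate_apply μ hμ, ← integral_sub (hi v) (hi w)]
  refine le_trans ?_ (mul_le_mul_of_nonneg_left (hc n v w) hL)
  rw [← integral_const_mul, ← Real.norm_eq_abs]
  exact norm_integral_le_of_norm_le (hd.const_mul L) (.of_forall fun x => hφ _ _)

theorem integral_stationary_iterate (hμ : ∀ᵐ A ∂μ, A ∈ unitDet E) (ν : Measure (Sph E))
    [IsProbabilityMeasure ν] (hν : stepLaw μ ν = ν) (φ : Sph E →ᵇ ℝ) (n : ℕ) :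
    ∫ v, (stepOp hμ)^[n] φ v ∂ν = ∫ v, φ v ∂ν := by
  rw [← integral_stepLaw_iterate μ hμ ν n φ, Function.iterate_fixed hν n]

theorem abs_iterate_sub_integral_le (hμ : ∀ᵐ A ∂μ, A ∈ unitDet E) (hc : Contracts μ α C r)
    (hα : 0 ≤ α) (hC : 0 ≤ C) (hr : 0 ≤ r) (hL : 0 ≤ L) (ν : Measure (Sph E))
    [IsProbabilityMeasure ν] (hν : stepLaw μ ν = ν) {φ : Sph E →ᵇ ℝ} (hφ : HolderProj φ L α)
    (n : ℕ) (v : Sph E) :
    |(stepOp hμ)^[n] φ v - ∫ w, φ w ∂ν| ≤ L * C * r ^ n := by
  rw [← integral_stationary_iterate hμ ν hν φ n]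
  set ψ := (stepOp hμ)^[n] φ
  have h : (stepOp hμ)^[n] φ v - ∫ w, ψ w ∂ν = ∫ w, (ψ v - ψ w) ∂ν := by
    rw [integral_sub (integrable_const _) (ψ.integrable ν), integral_const, probReal_univ, one_smul]
  rw [h, ← Real.norm_eq_abs]
  refine (norm_integral_le_of_norm_le_const (C := L * C * r ^ n)
    (.of_forall fun w => ?_)).trans_eq (by rw [probReal_univ, mul_one])
  refine (abs_iterate_sub_le hμ hc hα hL hφ n v w).trans ?_
  rw [mul_assoc L C]
  exact mul_le_mul_of_nonneg_left (mul_le_of_le_one_right (by positivity)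
    (Real.rpow_le_one (sineDist_nonneg _ _) (sineDist_le_one _ _) hα)) hL

variable {ε : ℝ}

/-- **Geometric ergodicity on Hölder functions.** -/
theorem geometric_ergodicity (hd : 2 ≤ finrank ℝ E) (hμ : ∀ᵐ A ∂μ, A ∈ unitDet E)
    (hsi : StronglyIrreducible μ.support) (hprox : Proximal μ.support) (hε : 0 < ε)
    (hexp : ExpMoment μ ε) {α₀ : ℝ} (hα₀ : 0 < α₀) :
    ∃ α C r : ℝ, 0 < α ∧ α ≤ α₀ ∧ 0 ≤ C ∧ 0 < r ∧ r < 1 ∧
      ∀ (ν : Measure (Sph E)), IsProbabilityMeasure ν → stepLaw μ ν = ν →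
        ∀ (φ : Sph E →ᵇ ℝ) (L : ℝ), 0 ≤ L → HolderProj φ L α → ∀ (n : ℕ) (v : Sph E),
          |∫ x, φ (act (randProd n x) v) ∂(Measure.infinitePi fun _ : ℕ => μ) - ∫ w, φ w ∂ν| ≤
            L * C * r ^ n := by
  obtain ⟨α, C, r, hα, hαle, hC, hr, hr1, hc⟩ :=
    projective_contraction hd hμ hsi hprox hε hexp hα₀
  refine ⟨α, C, r, hα, hαle, hC, hr, hr1, fun ν _ hν φ L hL hφ n v => ?_⟩
  rw [← stepOp_iterate_apply μ hμ]
  exact abs_iterate_sub_integral_le hμ hc hα.le hC hr.le hL ν hν hφ n v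

end FA.LePage
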