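import Fermat.Agent.LePage.Ergodicity

/-!
# The equation of Poisson

The centred mean growth is Hölder with stationary mean zero, so the sum of its iterates converges
and turns `log ‖Q v‖ - n γ` into a sum of martingale increments up to a bounded term.
-/

set_option autoImplicit false

noncomputable section

namespace FA.LePage

open MeasureTheory Filter Topology Module Set
open FA.FurstenbergLyapunov FA.FurstenbergKifer FA.GuivarchRaugi FA.ProjectiveStationary
open scoped BoundedContinuousFunction

variable {E : Type*} [NormedAddCommGroup E] [InnerProductSpace ℝ E] [FiniteDimensional ℝ E]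
  [MeasurableSpace E] [BorelSpace E] [Nontrivial E]

/-- The increment of the martingale. -/
def increment (γ : ℝ) (ψ : Sph E →ᵇ ℝ) (A : E →L[ℝ] E) (v : Sph E) : ℝ :=
  Real.log ‖A (v : E)‖ - γ + ψ (act A v) - ψ v

theorem measurable_increment (γ : ℝ) (ψ : Sph E →ᵇ ℝ) {β : Type*} [MeasurableSpace β]
    {A : β → E →L[ℝ] E} {f : β → Sph E} (hA : Measurable A) (hf : Measurable f) :
    Measurable fun b => increment γ ψ (A b) (f b) :=
  (((measurable_log_apply hA (measurable_subtype_coe.comp hf)).sub_const γ).add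
    (ψ.continuous.measurable.comp (measurable_act_pair hA hf))).sub
    (ψ.continuous.measurable.comp hf)

omit [MeasurableSpace E] [BorelSpace E] in
theorem continuous_increment (γ : ℝ) (ψ : Sph E →ᵇ ℝ) {A : E →L[ℝ] E} (hA : A ∈ unitDet E) :
    Continuous (increment γ ψ A) :=
  ((((A.continuous.comp continuous_subtype_val).norm.log
    fun v => norm_ne_zero_iff.2 (apply_ne_zero hA (sph_ne_zero v))).sub continuous_const).add
    (ψ.continuous.comp (continuous_act hA))).sub ψ.continuous

theorem exists_abs_increment_le (γ : ℝ) (ψ : Sph E →ᵇ ℝ) :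
    ∃ a b : ℝ, 0 ≤ a ∧ 0 ≤ b ∧ ∀ A ∈ unitDet E, ∀ v : Sph E,
      |increment γ ψ A v| ≤ a + b * Real.log ‖A‖ := by
  obtain ⟨C, hC0, hC⟩ := exists_abs_log_apply_le (E := E)
  refine ⟨C + |γ| + 2 * ‖ψ‖, finrank ℝ E, by positivity, Nat.cast_nonneg _, fun A hA v => ?_⟩
  have h1 := abs_le.1 (hC A hA v (norm_eq_of_mem_sphere v))
  have h2 := abs_le.1 (Real.norm_eq_abs _ ▸ ψ.norm_coe_le_norm (act A v))
  have h3 := abs_le.1 (Real.norm_eq_abs _ ▸ ψ.norm_coe_le_norm v)
  rw [increment, abs_le]
  constructor <;> linarith [le_abs_self γ, neg_le_abs γ]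

variable {μ : Measure (E →L[ℝ] E)} [IsProbabilityMeasure μ] {ε α C r : ℝ}

theorem exists_growthOne_holder (hμ : ∀ᵐ A ∂μ, A ∈ unitDet E)
    (hint : Integrable (fun A => Real.log ‖A‖) μ) (hexp : ExpMoment μ ε) (hα : 0 < α)
    (hα1 : α ≤ 1) (hαε : α * (finrank ℝ E + 2) ≤ ε) :
    ∃ L : ℝ, 0 ≤ L ∧ HolderProj (growthOne hμ hint) L α := by
  obtain ⟨K, hK0, hK⟩ := exists_log_holder (E := E) hα hα1
  refine ⟨K * ∫ A, ‖A‖ ^ ε ∂μ,
    mul_nonneg hK0 (integral_nonneg fun A => Real.rpow_nonneg (norm_nonneg A) _), fun v w => ?_⟩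
  have hδ : 0 ≤ sineDist v w ^ α := Real.rpow_nonneg (sineDist_nonneg v w) _
  rw [growthOne_apply, growthOne_apply, ← integral_sub (integrable_log_apply μ hμ hint v)
    (integrable_log_apply μ hμ hint w), ← Real.norm_eq_abs]
  exact (norm_integral_le_of_le hμ hexp (K := K * sineDist v w ^ α) (mul_nonneg hK0 hδ) hαε
    fun A hA => (hK A hA v w).trans_eq (by ring)).trans_eq (by ring)

/-- **The equation of Poisson has a Hölder solution.** -/
theorem exists_poisson (hμ : ∀ᵐ A ∂μ, A ∈ unitDet E) (hsi : StronglyIrreducible μ.support)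
    (hint : Integrable (fun A => Real.log ‖A‖) μ) (hexp : ExpMoment μ ε) {γ : ℝ}
    (hγ : ∀ᵐ x ∂(Measure.infinitePi fun _ : ℕ => μ),
      Tendsto (fun n : ℕ => Real.log ‖randProd n x‖ / n) atTop (𝓝 γ))
    (hc : Contracts μ α C r) (hα : 0 < α) (hα1 : α ≤ 1) (hαε : α * (finrank ℝ E + 2) ≤ ε)
    (hC : 0 ≤ C) (hr : 0 ≤ r) (hr1 : r < 1) :
    ∃ (ψ : Sph E →ᵇ ℝ) (L : ℝ), 0 ≤ L ∧ HolderProj ψ L α ∧
      ∀ v : Sph E, ∫ A, increment γ ψ A v ∂μ = 0 := by
  obtain ⟨L, hL, hg⟩ := exists_growthOne_holder hμ hint hexp hα hα1 hαε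
  set g : Sph E →ᵇ ℝ := growthOne hμ hint - BoundedContinuousFunction.const _ γ with hgdef
  have hgh : HolderProj g L α := fun v w => by
    simpa only [hgdef, BoundedContinuousFunction.coe_sub, Pi.sub_apply,
      BoundedContinuousFunction.const_apply, sub_sub_sub_cancel_right] using hg v w
  obtain ⟨ν, hν⟩ := exists_stationary μ hμ
  have hg0 : ∫ w, g w ∂(ν : Measure (Sph E)) = 0 := by
    show ∫ w, (growthOne hμ hint w - γ) ∂(ν : Measure (Sph E)) = 0
    rw [integral_sub (BoundedContinuousFunction.integrable _ _) (integrable_const _),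
      show ∫ w, growthOne hμ hint w ∂(ν : Measure (Sph E)) = γ from
        stationary_formula μ hμ hsi hint hγ _ hν, integral_const, probReal_univ, one_smul, sub_self]
  have hn : ∀ n : ℕ, ‖(stepOp hμ)^[n] g‖ ≤ L * C * r ^ n := fun n => by
    refine (BoundedContinuousFunction.norm_le (by positivity)).2 fun v => ?_
    simpa only [hg0, sub_zero, Real.norm_eq_abs] using
      abs_iterate_sub_integral_le hμ hc hα.le hC hr hL (ν : Measure (Sph E)) hν hgh n v
  have hsum : Summable fun n : ℕ => (stepOp hμ)^[n] g :=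
    Summable.of_norm_bounded ((summable_geometric_of_lt_one hr hr1).mul_left (L * C)) hn
  set ψ := ∑' n : ℕ, (stepOp hμ)^[n] g
  have hlim : ∀ v, Tendsto (fun N => ∑ n ∈ Finset.range N, (stepOp hμ)^[n] g v) atTop
      (𝓝 (ψ v)) := fun v =>
    ((hsum.hasSum.map (BoundedContinuousFunction.evalCLM ℝ v)
      (BoundedContinuousFunction.evalCLM ℝ v).continuous)).tendsto_sum_nat
  refine ⟨ψ, L * C / (1 - r), div_nonneg (mul_nonneg hL hC) (by linarith), fun v w => ?_,
    fun v => ?_⟩
  · refine le_of_tendsto ((hlim v).sub (hlim w)).abs (.of_forall fun N => ?_)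
    rw [← Finset.sum_sub_distrib]
    refine (Finset.abs_sum_le_sum_abs _ _).trans
      ((Finset.sum_le_sum fun n _ => abs_iterate_sub_le hμ hc hα.le hL hgh n v w).trans ?_)
    rw [← Finset.mul_sum, ← Finset.sum_mul, ← Finset.mul_sum,
      show L * C / (1 - r) * sineDist v w ^ α = L * (C * (1 - r)⁻¹ * sineDist v w ^ α) by ring]
    refine mul_le_mul_of_nonneg_left (mul_le_mul_of_nonneg_right (mul_le_mul_of_nonneg_left ?_ hC)
      (Real.rpow_nonneg (sineDist_nonneg v w) _)) hL
    exact (tsum_geometric_of_lt_one hr hr1).symm ▸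
      (summable_geometric_of_lt_one hr hr1).sum_le_tsum _ fun _ _ => pow_nonneg hr _
  · have hi := integrable_log_apply μ hμ hint v
    have hψi : Integrable (fun A => ψ (act A v)) μ := Integrable.of_bound
      (ψ.continuous.measurable.comp
        (measurable_act_pair measurable_id measurable_const)).aestronglyMeasurable ‖ψ‖
      (.of_forall fun _ => ψ.norm_coe_le_norm _)
    simp only [increment]
    rw [integral_sub (f := fun A => Real.log ‖A (v : E)‖ - γ + ψ (act A v)) (g := fun _ => ψ v)
        ((hi.sub (integrable_const γ)).add hψi) (integrable_const _),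
      integral_add (f := fun A => Real.log ‖A (v : E)‖ - γ) (g := fun A => ψ (act A v))
        (hi.sub (integrable_const γ)) hψi,
      integral_sub hi (integrable_const γ), integral_const, integral_const, probReal_univ,
      one_smul, one_smul]
    -- the sums of the iterates, averaged once
    have h1 : Tendsto (fun N => g v + ∫ A, ∑ n ∈ Finset.range N, (stepOp hμ)^[n] g (act A v) ∂μ)
        atTop (𝓝 (ψ v)) := by
      refine ((hlim v).comp (tendsto_add_atTop_nat 1)).congr fun N => ?_
      show ∑ n ∈ Finset.range (N + 1), (stepOp hμ)^[n] g v = _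
      rw [Finset.sum_range_succ', add_comm, integral_finsetSum _ fun n _ => ?_]
      · simp only [Function.iterate_succ_apply', stepOp_apply, Function.iterate_zero_apply]
      · exact Integrable.of_bound (((stepOp hμ)^[n] g).continuous.measurable.comp
          (measurable_act_pair measurable_id measurable_const)).aestronglyMeasurable _
          (.of_forall fun _ => ((stepOp hμ)^[n] g).norm_coe_le_norm _)
    have h2 : Tendsto (fun N => g v + ∫ A, ∑ n ∈ Finset.range N, (stepOp hμ)^[n] g (act A v) ∂μ)
        atTop (𝓝 (g v + ∫ A, ψ (act A v) ∂μ)) := by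
      refine tendsto_const_nhds.add (tendsto_integral_of_dominated_convergence
        (fun _ => L * C / (1 - r)) (fun N => (Finset.measurable_sum _ fun n _ =>
          ((stepOp hμ)^[n] g).continuous.measurable.comp
          (measurable_act_pair measurable_id measurable_const)).aestronglyMeasurable)
        (integrable_const _) (fun N => .of_forall fun A => ?_) (.of_forall fun A => hlim _))
      refine (norm_sum_le _ _).trans ((Finset.sum_le_sum fun n _ =>
        (((stepOp hμ)^[n] g).norm_coe_le_norm _).trans (hn n)).trans ?_)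
      rw [← Finset.mul_sum, div_eq_mul_inv]
      exact mul_le_mul_of_nonneg_left ((tsum_geometric_of_lt_one hr hr1).symm ▸
        (summable_geometric_of_lt_one hr hr1).sum_le_tsum _ fun _ _ => pow_nonneg hr _)
        (mul_nonneg hL hC)
    have h3 := tendsto_nhds_unique h1 h2
    have h4 : g v = ∫ A, Real.log ‖A (v : E)‖ ∂μ - γ := rfl
    linarith

end FA.LePage
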