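import Fermat.Agent.FurstenbergKifer.Almost
import Mathlib.Analysis.SpecialFunctions.Pow.Real
import Mathlib.Analysis.SpecialFunctions.Complex.Analytic

/-!
# Exponential moments

A law with `‖A‖ ^ ε` integrable integrates every power of `log ‖A‖` times a lower power of `‖A‖`,
and so does the law of a product.
-/

set_option autoImplicit false

noncomputable section

namespace FA.LePage

open MeasureTheory Filter Topology Module Set
open FA.FurstenbergLyapunov FA.FurstenbergKifer

theorem exp_le_one_add_add_sq (t : ℝ) :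
    Real.exp t ≤ 1 + t + t ^ 2 * Real.exp |t| := by
  have h1 := Real.one_le_exp (abs_nonneg t)
  have hsq : t ^ 2 ≤ t ^ 2 * Real.exp |t| := le_mul_of_one_le_right (sq_nonneg t) h1
  rcases le_or_gt |t| 1 with h | h
  · linarith [(abs_le.1 (Real.abs_exp_sub_one_sub_id_le h)).2]
  rcases le_or_gt t 0 with h0 | h0
  · have := Real.exp_le_one_iff.2 h0
    rw [abs_of_nonpos h0] at h
    nlinarith
  · rw [abs_of_pos h0] at h hsq ⊢
    have h2 : 1 * Real.exp t ≤ t ^ 2 * Real.exp t :=
      mul_le_mul_of_nonneg_right (by nlinarith) (Real.exp_pos t).le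
    linarith

/-- A linear function of the logarithm is below every power. -/
theorem exists_log_pow_le (a b : ℝ) (k : ℕ) {η : ℝ} (hη : 0 < η) :
    ∃ K : ℝ, 0 ≤ K ∧ ∀ x : ℝ, 1 ≤ x → |a + b * Real.log x| ^ k ≤ K * x ^ η := by
  set η' := η / ((k : ℝ) + 1)
  have hη' : 0 < η' := by positivity
  refine ⟨((|a| + |b|) * (1 + η'⁻¹)) ^ k, by positivity, fun x hx => ?_⟩
  have hx0 : 0 < x := one_pos.trans_le hx
  have hlog := Real.log_nonneg hx
  have hlog' : Real.log x ≤ η'⁻¹ * x ^ η' := by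
    rw [inv_mul_eq_div]
    exact Real.log_le_rpow_div hx0.le hη'
  have hone : 1 ≤ x ^ η' := Real.one_le_rpow hx hη'.le
  have h : |a + b * Real.log x| ≤ (|a| + |b|) * (1 + η'⁻¹) * x ^ η' := by
    refine (abs_add_le _ _).trans ?_
    rw [abs_mul, abs_of_nonneg hlog]
    have e1 : |b| * Real.log x ≤ |b| * (η'⁻¹ * x ^ η') :=
      mul_le_mul_of_nonneg_left hlog' (abs_nonneg b)
    have e2 : |a| ≤ |a| * x ^ η' := le_mul_of_one_le_right (abs_nonneg a) hone
    have e3 : 0 ≤ |b| * x ^ η' + |a| * (η'⁻¹ * x ^ η') := by positivity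
    nlinarith
  refine (pow_le_pow_left₀ (abs_nonneg _) h k).trans ?_
  rw [mul_pow]
  refine mul_le_mul_of_nonneg_left ?_ (by positivity)
  rw [← Real.rpow_natCast, ← Real.rpow_mul hx0.le]
  refine Real.rpow_le_rpow_of_exponent_le hx ?_
  simp only [η']
  rw [div_mul_eq_mul_div, div_le_iff₀ (by positivity)]
  nlinarith

variable {E : Type*} [NormedAddCommGroup E] [InnerProductSpace ℝ E] [FiniteDimensional ℝ E]
  [MeasurableSpace E] [BorelSpace E] [Nontrivial E]

/-- The exponential moment of order `ε`. -/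
def ExpMoment (μ : Measure (E →L[ℝ] E)) (ε : ℝ) : Prop :=
  Integrable (fun A : E →L[ℝ] E => ‖A‖ ^ ε) μ

variable {μ : Measure (E →L[ℝ] E)} [IsProbabilityMeasure μ] {ε : ℝ}

omit [IsProbabilityMeasure μ] in
/-- Functions below `K * ‖A‖ ^ ε` are integrable. -/
theorem integrable_of_le (hμ : ∀ᵐ A ∂μ, A ∈ unitDet E) (hexp : ExpMoment μ ε)
    {G : Type*} [NormedAddCommGroup G] {f : (E →L[ℝ] E) → G} (hf : AEStronglyMeasurable f μ)
    {K p : ℝ} (hK : 0 ≤ K) (hp : p ≤ ε) (hb : ∀ A ∈ unitDet E, ‖f A‖ ≤ K * ‖A‖ ^ p) :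
    Integrable f μ :=
  (hexp.const_mul K).mono' hf (hμ.mono fun A hA => (hb A hA).trans
    (mul_le_mul_of_nonneg_left (Real.rpow_le_rpow_of_exponent_le (one_le_norm hA) hp) hK))

omit [IsProbabilityMeasure μ] in
/-- An integral below `K * ‖A‖ ^ ε` is at most `K` times the moment. -/
theorem norm_integral_le_of_le (hμ : ∀ᵐ A ∂μ, A ∈ unitDet E) (hexp : ExpMoment μ ε)
    {G : Type*} [NormedAddCommGroup G] [NormedSpace ℝ G] {f : (E →L[ℝ] E) → G}
    {K p : ℝ} (hK : 0 ≤ K) (hp : p ≤ ε) (hb : ∀ A ∈ unitDet E, ‖f A‖ ≤ K * ‖A‖ ^ p) :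
    ‖∫ A, f A ∂μ‖ ≤ K * ∫ A, ‖A‖ ^ ε ∂μ := by
  rw [← integral_const_mul]
  exact norm_integral_le_of_norm_le (hexp.const_mul K) (hμ.mono fun A hA => (hb A hA).trans
    (mul_le_mul_of_nonneg_left (Real.rpow_le_rpow_of_exponent_le (one_le_norm hA) hp) hK))

omit [FiniteDimensional ℝ E] [MeasurableSpace E] [BorelSpace E] [Nontrivial E] in
theorem measurable_norm_rpow (p : ℝ) : Measurable fun A : E →L[ℝ] E => ‖A‖ ^ p :=
  continuous_norm.measurable.pow_const p

omit [IsProbabilityMeasure μ] in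
theorem integrable_log_norm (hμ : ∀ᵐ A ∂μ, A ∈ unitDet E) (hε : 0 < ε) (hexp : ExpMoment μ ε) :
    Integrable (fun A => Real.log ‖A‖) μ := by
  refine integrable_of_le hμ hexp
    (Real.measurable_log.comp continuous_norm.measurable).aestronglyMeasurable
    (K := ε⁻¹) (inv_nonneg.2 hε.le) le_rfl fun A hA => ?_
  rw [Real.norm_of_nonneg (Real.log_nonneg (one_le_norm hA)), inv_mul_eq_div]
  exact Real.log_le_rpow_div (norm_nonneg _) hε

omit [MeasurableSpace E] [BorelSpace E] in
theorem integrable_randProd_rpow (hμ : ∀ᵐ A ∂μ, A ∈ unitDet E) (hε : 0 ≤ ε)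
    (hexp : ExpMoment μ ε) (n : ℕ) :
    Integrable (fun x => ‖randProd n x‖ ^ ε) (Measure.infinitePi fun _ : ℕ => μ) := by
  set π := Measure.infinitePi fun _ : ℕ => μ with hπ
  induction n with
  | zero => simp [randProd, FA.Kingman.cocycleProd]
  | succ n ih =>
    have hm : Measurable fun p : (E →L[ℝ] E) × (ℕ → E →L[ℝ] E) =>
        ‖randProd n p.2‖ ^ ε * ‖p.1‖ ^ ε :=
      (((measurable_norm_rpow ε).comp (measurable_randProd n)).comp measurable_snd).mul
        ((measurable_norm_rpow ε).comp measurable_fst)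
    have h1 : Integrable (fun p : (E →L[ℝ] E) × (ℕ → E →L[ℝ] E) =>
        ‖randProd n p.2‖ ^ ε * ‖p.1‖ ^ ε) (μ.prod π) := by
      simpa only [mul_comm] using hexp.mul_prod ih
    have h2 : Integrable (fun x => ‖randProd n (shift x)‖ ^ ε * ‖x 0‖ ^ ε) π := by
      rw [hπ, ← map_split_infinitePi μ] at h1
      exact (integrable_map_measure hm.aestronglyMeasurable
        ((measurable_pi_apply 0).prodMk measurable_shift).aemeasurable).1 h1
    refine h2.mono' (((measurable_norm_rpow ε).comp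
      (measurable_randProd _)).aestronglyMeasurable) ((ae_all_unitDet μ hμ).mono fun x _ => ?_)
    rw [Real.norm_of_nonneg (Real.rpow_nonneg (norm_nonneg _) _),
      ← Real.mul_rpow (norm_nonneg _) (norm_nonneg _)]
    refine Real.rpow_le_rpow (norm_nonneg _) ?_ hε
    rw [randProd_succ]
    exact norm_mul_le _ _

omit [MeasurableSpace E] [BorelSpace E] in
theorem expMoment_blockLaw (hμ : ∀ᵐ A ∂μ, A ∈ unitDet E) (hε : 0 ≤ ε) (hexp : ExpMoment μ ε)
    (n : ℕ) : ExpMoment (blockLaw μ n) ε :=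
  (integrable_map_measure (measurable_norm_rpow ε).aestronglyMeasurable
    (measurable_randProd n).aemeasurable).2 (integrable_randProd_rpow hμ hε hexp n)

/-- **A negative mean gives a small exponential moment below one.** -/
theorem exists_exp_moment_lt_one (hμ : ∀ᵐ A ∂μ, A ∈ unitDet E) (hε : 0 < ε)
    (hexp : ExpMoment μ ε) {ι : Sort*} (X : ι → (E →L[ℝ] E) → ℝ) (hXm : ∀ i, Measurable (X i))
    {a b : ℝ} (ha : 0 ≤ a) (hb : 0 ≤ b)
    (hX : ∀ i, ∀ A ∈ unitDet E, |X i A| ≤ a + b * Real.log ‖A‖)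
    (hmean : ∀ i, ∫ A, X i A ∂μ ≤ -1) {α₀ : ℝ} (hα₀ : 0 < α₀) :
    ∃ α r : ℝ, 0 < α ∧ α ≤ α₀ ∧ 0 < r ∧ r < 1 ∧
      ∀ i, ∫⁻ A, ENNReal.ofReal (Real.exp (α * X i A)) ∂μ ≤ ENNReal.ofReal r := by
  obtain ⟨K, hK0, hK⟩ := exists_log_pow_le a b 2 (half_pos hε)
  set M := K * Real.exp a * ∫ A, ‖A‖ ^ ε ∂μ
  have hM : 0 ≤ M := by positivity
  set α := min (min α₀ 1) (min (ε / (2 * (b + 1))) (1 / (2 * (M + 1))))
  have hαpos : 0 < α := lt_min (lt_min hα₀ one_pos) (lt_min (by positivity) (by positivity))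
  have hα1 : α ≤ 1 := (min_le_left _ _).trans (min_le_right _ _)
  have hαb : α * b ≤ ε / 2 := by
    have h : α ≤ ε / (2 * (b + 1)) := (min_le_right _ _).trans (min_le_left _ _)
    rw [le_div_iff₀ (by positivity)] at h
    nlinarith
  have hαM : α * (2 * (M + 1)) ≤ 1 := by
    have h : α ≤ 1 / (2 * (M + 1)) := (min_le_right _ _).trans (min_le_right _ _)
    rwa [le_div_iff₀ (by positivity)] at h
  refine ⟨α, 1 - α / 2, hαpos, (min_le_left _ _).trans (min_le_left _ _), by linarith,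
    by linarith, fun i => ?_⟩
  have hbound : ∀ A ∈ unitDet E,
      X i A ^ 2 * Real.exp |α * X i A| ≤ K * Real.exp a * ‖A‖ ^ ε := fun A hA => by
    have h1 := one_le_norm hA
    have h0 : 0 < ‖A‖ := one_pos.trans_le h1
    have hsq : X i A ^ 2 ≤ K * ‖A‖ ^ (ε / 2) := by
      refine le_trans ?_ (hK ‖A‖ h1)
      rw [← sq_abs]
      exact pow_le_pow_left₀ (abs_nonneg _) ((hX i A hA).trans (le_abs_self _)) 2
    have hexp' : Real.exp |α * X i A| ≤ Real.exp a * ‖A‖ ^ (ε / 2) := by
      rw [Real.rpow_def_of_pos h0, ← Real.exp_add, abs_mul, abs_of_pos hαpos]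
      refine Real.exp_le_exp.2 ?_
      have e1 := mul_le_mul_of_nonneg_left (hX i A hA) hαpos.le
      have e2 : α * a ≤ a := mul_le_of_le_one_left ha hα1
      have e3 := mul_le_mul_of_nonneg_right hαb (Real.log_nonneg h1)
      linarith
    calc X i A ^ 2 * Real.exp |α * X i A|
        ≤ (K * ‖A‖ ^ (ε / 2)) * (Real.exp a * ‖A‖ ^ (ε / 2)) :=
          mul_le_mul hsq hexp' (Real.exp_pos _).le (by positivity)
      _ = K * Real.exp a * (‖A‖ ^ (ε / 2) * ‖A‖ ^ (ε / 2)) := by ring
      _ = _ := by rw [← Real.rpow_add h0, add_halves]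
  have hXi : Integrable (X i) μ := by
    refine ((integrable_const a).add ((integrable_log_norm hμ hε hexp).const_mul b)).mono'
      (hXm i).aestronglyMeasurable (hμ.mono fun A hA => ?_)
    exact hX i A hA
  have hm2 : Measurable fun A => X i A ^ 2 * Real.exp |α * X i A| :=
    ((hXm i).pow_const 2).mul
      (Real.measurable_exp.comp (continuous_abs.measurable.comp ((hXm i).const_mul α)))
  have h2i : Integrable (fun A => X i A ^ 2 * Real.exp |α * X i A|) μ := by
    refine integrable_of_le hμ hexp hm2.aestronglyMeasurable (K := K * Real.exp a) (by positivity)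
      le_rfl fun A hA => ?_
    rw [Real.norm_of_nonneg (by positivity)]
    exact hbound A hA
  have hg : Integrable (fun A => 1 + α * X i A + α ^ 2 * (X i A ^ 2 * Real.exp |α * X i A|)) μ :=
    ((integrable_const 1).add (hXi.const_mul α)).add (h2i.const_mul _)
  have hpt : ∀ A, Real.exp (α * X i A) ≤
      1 + α * X i A + α ^ 2 * (X i A ^ 2 * Real.exp |α * X i A|) := fun A =>
    (exp_le_one_add_add_sq _).trans_eq (by ring)
  calc ∫⁻ A, ENNReal.ofReal (Real.exp (α * X i A)) ∂μ
      ≤ ∫⁻ A, ENNReal.ofReal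
          (1 + α * X i A + α ^ 2 * (X i A ^ 2 * Real.exp |α * X i A|)) ∂μ :=
        lintegral_mono fun A => ENNReal.ofReal_le_ofReal (hpt A)
    _ = ENNReal.ofReal
          (∫ A, 1 + α * X i A + α ^ 2 * (X i A ^ 2 * Real.exp |α * X i A|) ∂μ) :=
        (ofReal_integral_eq_lintegral_ofReal hg
          (.of_forall fun A => (Real.exp_pos _).le.trans (hpt A))).symm
    _ ≤ ENNReal.ofReal (1 - α / 2) := by
        refine ENNReal.ofReal_le_ofReal ?_
        rw [integral_add (f := fun A => 1 + α * X i A)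
            (g := fun A => α ^ 2 * (X i A ^ 2 * Real.exp |α * X i A|))
            ((integrable_const 1).add (hXi.const_mul α)) (h2i.const_mul _),
          integral_add (integrable_const 1) (hXi.const_mul α), integral_const, probReal_univ,
          one_smul, integral_const_mul, integral_const_mul]
        have e1 := mul_le_mul_of_nonneg_left (hmean i) hαpos.le
        have e2 : ∫ A, X i A ^ 2 * Real.exp |α * X i A| ∂μ ≤ M := by
          show _ ≤ K * Real.exp a * ∫ A, ‖A‖ ^ ε ∂μ
          rw [← integral_const_mul]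
          exact integral_mono_ae h2i (hexp.const_mul _) (hμ.mono hbound)
        have e3 := mul_le_mul_of_nonneg_left e2 (sq_nonneg α)
        have e4 : α * (α * (2 * M)) ≤ α * 1 :=
          mul_le_mul_of_nonneg_left (by nlinarith) hαpos.le
        nlinarith

end FA.LePage
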