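import Fermat.Agent.LePage.Twist
import Mathlib.MeasureTheory.Function.ConvergenceInDistribution
import Mathlib.MeasureTheory.Measure.LevyConvergence
import Mathlib.Probability.Distributions.Gaussian.Real

/-!
# Le Page's central limit theorem

The characteristic function of the centred growth over `√n` is compared with the `n`-th power of
its value in one averaged step.
-/

set_option autoImplicit false

noncomputable section

namespace FA.LePage

open MeasureTheory ProbabilityTheory Filter Topology Module Set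
open FA.FurstenbergLyapunov FA.FurstenbergKifer FA.GuivarchRaugi FA.ProjectiveStationary
open Complex (I)
open scoped BoundedContinuousFunction

variable {E : Type*} [NormedAddCommGroup E] [InnerProductSpace ℝ E] [FiniteDimensional ℝ E]
  [MeasurableSpace E] [BorelSpace E] [Nontrivial E]

variable {μ : Measure (E →L[ℝ] E)} [IsProbabilityMeasure μ] {γ : ℝ} {ψ : Sph E →ᵇ ℝ}

omit [FiniteDimensional ℝ E] [MeasurableSpace E] [BorelSpace E] in
theorem twist_zero (s : ℝ) (v : Sph E) :
    twist μ γ ψ s 0 (BoundedContinuousFunction.const _ 1) v = 1 := by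
  simp [twist, centred, randProd, FA.Kingman.cocycleProd, act_one]

/-- The characteristic function against the power of the one-step value. -/
theorem norm_twist_sub_pow_le (hμ : ∀ᵐ A ∂μ, A ∈ unitDet E) (V : Sph E →ᵇ ℝ) {s R σ2 η : ℝ}
    (hη : 0 ≤ η) (hσ : 0 ≤ σ2) (hs : s ^ 2 * σ2 / 2 ≤ 2)
    (hR : ∀ w, ‖twist μ γ ψ s 1 (BoundedContinuousFunction.const _ 1) w -
      ((1 - s ^ 2 * V w / 2 : ℝ) : ℂ)‖ ≤ R) {m : ℕ}
    (hm : ∀ w, ‖twist μ γ ψ s m (V - BoundedContinuousFunction.const _ σ2) w‖ ≤ η)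
    (n : ℕ) (v : Sph E) :
    ‖twist μ γ ψ s n (BoundedContinuousFunction.const _ 1) v -
      ((1 - s ^ 2 * σ2 / 2 : ℝ) : ℂ) ^ n‖ ≤
      n * (s ^ 2 / 2 * η + R) +
        (min n m : ℕ) * (s ^ 2 / 2 * ‖V - BoundedContinuousFunction.const _ σ2‖) := by
  set one := BoundedContinuousFunction.const (Sph E) (1 : ℝ)
  set W := V - BoundedContinuousFunction.const _ σ2
  set c : ℂ := ((1 - s ^ 2 * σ2 / 2 : ℝ) : ℂ)
  have hs2 : 0 ≤ s ^ 2 / 2 := by positivity
  have hc : ‖c‖ ≤ 1 := by
    simp only [c]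
    rw [Complex.norm_real, Real.norm_eq_abs, abs_le]
    have : 0 ≤ s ^ 2 * σ2 / 2 := by positivity
    constructor <;> linarith
  induction n with
  | zero => simp [one, twist_zero]
  | succ n ih =>
    have h1 := norm_twist_succ_sub_le γ ψ s hμ V hR σ2 n v
    have h2 : twist μ γ ψ s (n + 1) one v - c ^ (n + 1) =
        (twist μ γ ψ s (n + 1) one v - c * twist μ γ ψ s n one v) +
          c * (twist μ γ ψ s n one v - c ^ n) := by ring
    rw [h2]
    refine (norm_add_le _ _).trans ((add_le_add h1 ((norm_mul _ _).trans_le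
      (mul_le_of_le_one_left (norm_nonneg _) hc))).trans ?_)
    refine (add_le_add_right ih _).trans ?_
    rw [Nat.cast_succ]
    rcases le_or_gt m n with h | h
    · rw [min_eq_right h, min_eq_right (h.trans n.le_succ)]
      have := mul_le_mul_of_nonneg_left (norm_twist_le_of_late γ ψ s hμ W h hm v) hs2
      linarith
    · rw [min_eq_left h.le, min_eq_left h, Nat.cast_succ]
      have := mul_le_mul_of_nonneg_left (norm_twist_le (μ := μ) γ ψ s n W v) hs2
      have := mul_nonneg hs2 hη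
      linarith

variable {ε α C r L : ℝ}

/-- **The central limit theorem for the centred growth.** -/
theorem tendsto_twist (hμ : ∀ᵐ A ∂μ, A ∈ unitDet E) (hε : 0 < ε) (hexp : ExpMoment μ ε)
    (hmean : ∀ v : Sph E, ∫ A, increment γ ψ A v ∂μ = 0) (hc : Contracts μ α C r) (hα : 0 < α)
    (hC : 0 ≤ C) (hr : 0 ≤ r) (hr1 : r < 1) {V : Sph E →ᵇ ℝ} (hL : 0 ≤ L)
    (hVh : HolderProj V L α) (hV : ∀ v, V v = ∫ A, increment γ ψ A v ^ 2 ∂μ)
    (ν : Measure (Sph E)) [IsProbabilityMeasure ν] (hν : stepLaw μ ν = ν) (t : ℝ) (v : Sph E) :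
    Tendsto (fun n : ℕ => twist μ γ ψ (t / Real.sqrt n) n
      (BoundedContinuousFunction.const _ 1) v) atTop
      (𝓝 ((Real.exp (-((∫ w, V w ∂ν) * t ^ 2) / 2) : ℝ) : ℂ)) := by
  have hint := integrable_log_norm hμ hε hexp
  set σ2 := ∫ w, V w ∂ν
  have hσ : 0 ≤ σ2 := integral_nonneg fun w => by
    rw [hV]; exact integral_nonneg fun A => sq_nonneg _
  set W := V - BoundedContinuousFunction.const (Sph E) σ2
  have hWh : HolderProj W L α := fun a b => by
    simpa only [W, BoundedContinuousFunction.coe_sub, Pi.sub_apply,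
      BoundedContinuousFunction.const_apply, sub_sub_sub_cancel_right] using hVh a b
  have hW0 : ∫ w, W w ∂ν = 0 := by
    show ∫ w, (V w - σ2) ∂ν = 0
    rw [integral_sub (V.integrable ν) (integrable_const _), integral_const, probReal_univ,
      one_smul, sub_self]
  obtain ⟨M₃, hM₃0, hM₃⟩ := exists_norm_twist_one_sub_le γ ψ hμ hε hexp hmean V hV
  set s : ℕ → ℝ := fun n => t / Real.sqrt n
  have hs : Tendsto s atTop (𝓝 0) :=
    tendsto_const_nhds.div_atTop (Real.tendsto_sqrt_atTop.comp tendsto_natCast_atTop_atTop)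
  have hns : ∀ n : ℕ, 0 < n → (n : ℝ) * s n ^ 2 = t ^ 2 := fun n hn => by
    rw [div_pow, Real.sq_sqrt n.cast_nonneg, mul_div_cancel₀ _ (Nat.cast_ne_zero.2 hn.ne')]
  have hpow : Tendsto (fun n => (((1 - s n ^ 2 * σ2 / 2 : ℝ) : ℂ)) ^ n) atTop
      (𝓝 ((Real.exp (-(σ2 * t ^ 2) / 2) : ℝ) : ℂ)) := by
    simp only [← Complex.ofReal_pow]
    refine (Complex.continuous_ofReal.tendsto _).comp
      ((Real.tendsto_one_add_div_pow_exp (-(σ2 * t ^ 2) / 2)).congr' ?_)
    filter_upwards [eventually_gt_atTop 0] with n hn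
    congr 1
    rw [← hns n hn]
    field_simp
    ring
  refine tendsto_iff_norm_sub_tendsto_zero.2 (tendsto_order.2 ⟨fun c h => .of_forall fun n =>
    h.trans_le (norm_nonneg _), fun c h => ?_⟩)
  obtain ⟨m, hm⟩ : ∃ m : ℕ, t ^ 2 / 2 * (L * C * r ^ m) < c / 4 := by
    have h0 := ((tendsto_pow_atTop_nhds_zero_of_lt_one hr hr1).const_mul
      (t ^ 2 / 2 * (L * C)))
    rw [mul_zero] at h0
    obtain ⟨m, hm⟩ := (h0.eventually_lt_const (show (0 : ℝ) < c / 4 by positivity)).exists
    exact ⟨m, by linarith⟩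
  obtain ⟨M, hM0, hM⟩ := exists_norm_twist_sub_le γ ψ hμ hint m
  have herr : Tendsto (fun n => |s n| * (t ^ 2 / 2 * (‖W‖ * M) + t ^ 2 * M₃) +
      s n ^ 2 * ((m : ℝ) / 2 * ‖W‖)) atTop (𝓝 0) := by
    simpa using ((hs.abs).mul_const (t ^ 2 / 2 * (‖W‖ * M) + t ^ 2 * M₃)).add
      ((hs.pow 2).mul_const ((m : ℝ) / 2 * ‖W‖))
  have hsmall : ∀ᶠ n in atTop, s n ^ 2 * σ2 / 2 ≤ 2 := by
    have h2 := ((hs.pow 2).mul_const σ2).div_const 2
    rw [zero_pow two_ne_zero, zero_mul, zero_div] at h2
    exact h2.eventually_le_const two_pos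
  have hdist := tendsto_iff_norm_sub_tendsto_zero.1 hpow
  filter_upwards [herr.eventually_lt_const (show (0 : ℝ) < c / 4 by positivity),
    hdist.eventually_lt_const (show (0 : ℝ) < c / 4 by positivity), hsmall,
    eventually_gt_atTop 0] with n hn1 hn2 hn3 hn0
  have hη : ∀ w, ‖twist μ γ ψ (s n) m W w‖ ≤ L * C * r ^ m + |s n| * ‖W‖ * M := fun w => by
    have h1 := hM (s n) W w
    have h2 := abs_iterate_sub_integral_le hμ hc hα.le hC hr hL ν hν hWh m w
    rw [hW0, sub_zero] at h2
    refine le_trans ?_ (add_le_add h2 h1)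
    rw [← Real.norm_eq_abs, ← Complex.norm_real, add_comm]
    exact norm_le_norm_sub_add _ _
  have key := norm_twist_sub_pow_le hμ V (η := L * C * r ^ m + |s n| * ‖W‖ * M)
    (by positivity) hσ hn3 (fun w => hM₃ (s n) w) hη n v
  have hmin : ((min n m : ℕ) : ℝ) * (s n ^ 2 / 2 * ‖W‖) ≤ s n ^ 2 * ((m : ℝ) / 2 * ‖W‖) := by
    refine (mul_le_mul_of_nonneg_right (Nat.cast_le.2 (min_le_right n m)) (by positivity)).trans_eq
      ?_
    ring
  have hmain : (n : ℝ) * (s n ^ 2 / 2 * (L * C * r ^ m + |s n| * ‖W‖ * M) + |s n| ^ 3 * M₃) =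
      t ^ 2 / 2 * (L * C * r ^ m) + |s n| * (t ^ 2 / 2 * (‖W‖ * M) + t ^ 2 * M₃) := by
    rw [show |s n| ^ 3 = s n ^ 2 * |s n| by rw [pow_succ, sq_abs], ← hns n hn0]
    ring
  refine (norm_sub_le_norm_sub_add_norm_sub _ (((1 - s n ^ 2 * σ2 / 2 : ℝ) : ℂ) ^ n) _).trans_lt ?_
  show ‖twist μ γ ψ (s n) n _ v - _‖ + _ < c
  linarith

omit [FiniteDimensional ℝ E] [MeasurableSpace E] [BorelSpace E] [Nontrivial E]
  [IsProbabilityMeasure μ] in
/-- Almost surely close sequences have the same limit of characteristic functions. -/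
theorem tendsto_charFun_of_close {Ω : Type*} [MeasurableSpace Ω] (P : Measure Ω)
    [IsProbabilityMeasure P] {f g : ℕ → Ω → ℝ} (hf : ∀ n, Measurable (f n))
    (hg : ∀ n, Measurable (g n))
    (hclose : ∀ᵐ ω ∂P, Tendsto (fun n => g n ω - f n ω) atTop (𝓝 0)) (t : ℝ) {z : ℂ}
    (hlim : Tendsto (fun n => charFun (P.map (f n)) t) atTop (𝓝 z)) :
    Tendsto (fun n => charFun (P.map (g n)) t) atTop (𝓝 z) := by
  set e : ℝ → ℂ := fun y => Complex.exp ((t : ℂ) * (y : ℂ) * I) with he
  have hem : Measurable e := Complex.continuous_exp.measurable.comp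
    (((Complex.measurable_ofReal).const_mul (t : ℂ)).mul_const I)
  have hen : ∀ y, ‖e y‖ = 1 := fun y => by
    simp only [he, ← Complex.ofReal_mul, Complex.norm_exp_ofReal_mul_I]
  have hcf : ∀ h : Ω → ℝ, Measurable h → charFun (P.map h) t = ∫ ω, e (h ω) ∂P := fun h hh => by
    rw [charFun_apply_real]
    exact integral_map hh.aemeasurable hem.aestronglyMeasurable
  have hi : ∀ h : Ω → ℝ, Measurable h → Integrable (fun ω => e (h ω)) P := fun h hh =>
    Integrable.of_bound (hem.comp hh).aestronglyMeasurable 1 (.of_forall fun ω => (hen _).le)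
  have h0 : Tendsto (fun n => ∫ ω, (e (g n ω) - e (f n ω)) ∂P) atTop (𝓝 0) := by
    rw [show (0 : ℂ) = ∫ _, (0 : ℂ) ∂P by simp]
    refine tendsto_integral_of_dominated_convergence (fun _ => 1 + 1)
      (fun n => ((hi _ (hg n)).sub (hi _ (hf n))).aestronglyMeasurable) (integrable_const _)
      (fun n => .of_forall fun ω => (norm_sub_le _ _).trans (by rw [hen, hen])) ?_
    filter_upwards [hclose] with ω hω
    refine squeeze_zero_norm (a := fun n => |t| * |g n ω - f n ω|) (fun n => ?_)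
      (by simpa using hω.abs.const_mul |t|)
    have : e (g n ω) - e (f n ω) =
        e (f n ω) * (Complex.exp (I * ((t * (g n ω - f n ω) : ℝ) : ℂ)) - 1) := by
      simp only [he, mul_sub, mul_one, ← Complex.exp_add]
      push_cast
      ring_nf
    rw [this, norm_mul, hen, one_mul, ← abs_mul]
    exact Real.norm_exp_I_mul_ofReal_sub_one_le
  have := hlim.add h0
  rw [add_zero] at this
  refine this.congr fun n => ?_
  rw [hcf _ (hf n), hcf _ (hg n), integral_sub (hi _ (hg n)) (hi _ (hf n))]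
  ring

omit [FiniteDimensional ℝ E] [MeasurableSpace E] [BorelSpace E] [Nontrivial E] in
theorem tendsto_div_sqrt {u : ℕ → ℝ} {B : ℝ} (h : ∀ᶠ n in atTop, |u n| ≤ B) :
    Tendsto (fun n => u n / Real.sqrt n) atTop (𝓝 0) := by
  refine squeeze_zero_norm' (a := fun n : ℕ => B / Real.sqrt n) ?_
    (tendsto_const_nhds.div_atTop (Real.tendsto_sqrt_atTop.comp tendsto_natCast_atTop_atTop))
  filter_upwards [h] with n hn
  rw [Real.norm_eq_abs, abs_div, abs_of_nonneg (Real.sqrt_nonneg _)]
  exact div_le_div_of_nonneg_right hn (Real.sqrt_nonneg _)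

/-- The growth of a vector, centred and scaled. -/
def scaledApply (γ : ℝ) (n : ℕ) (v : E) (x : ℕ → E →L[ℝ] E) : ℝ :=
  (Real.log ‖randProd n x v‖ - n * γ) / Real.sqrt n

/-- The growth of the norm, centred and scaled. -/
def scaledNorm (γ : ℝ) (n : ℕ) (x : ℕ → E →L[ℝ] E) : ℝ :=
  (Real.log ‖randProd n x‖ - n * γ) / Real.sqrt n

omit [Nontrivial E] in
theorem measurable_scaledApply (γ : ℝ) (n : ℕ) (v : E) :
    Measurable (scaledApply (E := E) γ n v) :=
  ((measurable_log_apply (measurable_randProd n) measurable_const).sub_const _).div_const _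

omit [MeasurableSpace E] [BorelSpace E] [Nontrivial E] in
theorem measurable_scaledNorm (γ : ℝ) (n : ℕ) : Measurable (scaledNorm (E := E) γ n) :=
  ((Real.measurable_log.comp (continuous_norm.measurable.comp (measurable_randProd n))).sub_const
    _).div_const _

/-- **Le Page's theorem** for the characteristic functions. -/
theorem exists_clt (hd : 2 ≤ finrank ℝ E) (hμ : ∀ᵐ A ∂μ, A ∈ unitDet E)
    (hsi : StronglyIrreducible μ.support) (hprox : Proximal μ.support) (hε : 0 < ε)
    (hexp : ExpMoment μ ε)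
    (hγ : ∀ᵐ x ∂(Measure.infinitePi fun _ : ℕ => μ),
      Tendsto (fun n : ℕ => Real.log ‖randProd n x‖ / n) atTop (𝓝 γ)) :
    ∃ (ψ : Sph E →ᵇ ℝ) (σ2 : ℝ), 0 ≤ σ2 ∧
      (∀ v : Sph E, ∫ A, increment γ ψ A v ∂μ = 0) ∧
      (∀ ν : Measure (Sph E), IsProbabilityMeasure ν → stepLaw μ ν = ν →
        σ2 = ∫ v, ∫ A, increment γ ψ A v ^ 2 ∂μ ∂ν) ∧
      (∀ v : E, v ≠ 0 → ∀ t : ℝ,
        Tendsto (fun n => charFun ((Measure.infinitePi fun _ : ℕ => μ).map
            (scaledApply γ n v)) t) atTop (𝓝 ((Real.exp (-(σ2 * t ^ 2) / 2) : ℝ) : ℂ))) ∧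
      ∀ t : ℝ, Tendsto (fun n => charFun ((Measure.infinitePi fun _ : ℕ => μ).map
        (scaledNorm γ n)) t) atTop (𝓝 ((Real.exp (-(σ2 * t ^ 2) / 2) : ℝ) : ℂ)) := by
  set π := Measure.infinitePi fun _ : ℕ => μ with hπ
  have hint := integrable_log_norm hμ hε hexp
  set b : ℝ := 2 + 2 * (finrank ℝ E : ℕ)
  have hb : 0 < b := by positivity
  obtain ⟨α, C, r, hα, hαle, hC, hr, hr1, hc⟩ :=
    projective_contraction hd hμ hsi hprox hε hexp (α₀ := min 1 (ε / (2 * b)))
      (lt_min one_pos (by positivity))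
  have hα1 : α ≤ 1 := hαle.trans (min_le_left _ _)
  have hαb : α * b ≤ ε / 2 := by
    have h := hαle.trans (min_le_right _ _)
    rw [le_div_iff₀ (by positivity)] at h
    linarith
  have hαd : α * (finrank ℝ E + 2) ≤ ε := by
    refine (mul_le_mul_of_nonneg_left ?_ hα.le).trans (hαb.trans (by linarith))
    have : (0 : ℝ) ≤ finrank ℝ E := Nat.cast_nonneg _
    simp only [b]
    linarith
  obtain ⟨ψ, L, hL, hψ, hmean⟩ :=
    exists_poisson hμ hsi hint hexp hγ hc hα hα1 hαd hC hr.le hr1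
  obtain ⟨V, L', hL', hVh, hV⟩ := exists_variance hd hμ hε hexp γ hL hψ hα hα1 hαb
  obtain ⟨ν₀, hν₀⟩ := exists_stationary μ hμ
  set σ2 := ∫ w, V w ∂(ν₀ : Measure (Sph E)) with hσ
  have hsph : ∀ (v : Sph E) (t : ℝ), Tendsto (fun n => charFun (π.map (scaledApply γ n (v : E))) t)
      atTop (𝓝 ((Real.exp (-(σ2 * t ^ 2) / 2) : ℝ) : ℂ)) := by
    intro v t
    have h1 := tendsto_twist hμ hε hexp hmean hc hα hC hr.le hr1 hL' hVh hV
      (ν₀ : Measure (Sph E)) hν₀ t v
    have hm : ∀ n : ℕ, Measurable fun x : ℕ → E →L[ℝ] E =>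
        centred γ ψ n (randProd n x) v / Real.sqrt n := fun n =>
      (measurable_centred γ ψ n (measurable_randProd n) measurable_const).div_const _
    refine tendsto_charFun_of_close π hm (fun n => measurable_scaledApply γ n _) ?_ t
      (h1.congr fun n => ?_)
    · refine .of_forall fun x => (tendsto_div_sqrt
        (u := fun n => ψ v - ψ (act (randProd n x) v)) (B := 2 * ‖ψ‖)
        (.of_forall fun n => ?_)).congr fun n => ?_
      · exact (abs_sub _ _).trans ((add_le_add (ψ.norm_coe_le_norm _)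
          (ψ.norm_coe_le_norm _)).trans_eq (two_mul _).symm)
      · simp only [scaledApply, centred]
        ring
    · rw [charFun_apply_real, twist]
      refine Eq.trans ?_ (integral_map (f := fun y : ℝ => Complex.exp ((t : ℂ) * (y : ℂ) * I))
        (hm n).aemeasurable (Complex.continuous_exp.measurable.comp
          ((Complex.measurable_ofReal.const_mul (t : ℂ)).mul_const I)).aestronglyMeasurable).symm
      refine integral_congr_ae (.of_forall fun x => ?_)
      simp only [BoundedContinuousFunction.const_apply, Complex.ofReal_one, mul_one]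
      congr 1
      push_cast
      ring
  refine ⟨ψ, σ2, integral_nonneg fun w => by rw [hV]; exact integral_nonneg fun A => sq_nonneg _,
    hmean, fun ν _ hν => ?_, fun v hv t => ?_, fun t => ?_⟩
  · have e := fun n : ℕ =>
      abs_iterate_sub_integral_le hμ hc hα.le hC hr.le hL' (ν₀ : Measure (Sph E)) hν₀ hVh n
    have e' := fun n : ℕ => abs_iterate_sub_integral_le hμ hc hα.le hC hr.le hL' ν hν hVh n
    simp only [← hV]
    refine eq_of_abs_sub_nonpos (le_of_tendsto_of_tendsto tendsto_const_nhds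
      (((tendsto_pow_atTop_nhds_zero_of_lt_one hr.le hr1).const_mul (2 * (L' * C))).trans
        (le_of_eq (by rw [mul_zero])))
      (.of_forall fun n : ℕ => ?_))
    have h1 := abs_le.1 (e n (basePoint E))
    have h2 := abs_le.1 (e' n (basePoint E))
    rw [abs_le]
    constructor <;> linarith
  · refine tendsto_charFun_of_close π (fun n => measurable_scaledApply γ n (dir v : E))
      (fun n => measurable_scaledApply γ n v) ?_ t (hsph (dir v) t)
    filter_upwards [ae_all_unitDet μ hμ] with x hx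
    refine (tendsto_div_sqrt (u := fun _ => Real.log ‖v‖) (B := |Real.log ‖v‖|)
      (.of_forall fun _ => le_rfl)).congr fun n => ?_
    simp only [scaledApply]
    rw [coe_dir hv, map_smul, norm_smul, norm_inv, norm_norm,
      Real.log_mul (inv_ne_zero (norm_ne_zero_iff.2 hv))
        (norm_ne_zero_iff.2 (apply_ne_zero (randProd_mem_unitDet hx n) hv)), Real.log_inv]
    ring
  · refine tendsto_charFun_of_close π (fun n => measurable_scaledApply γ n (basePoint E : E))
      (fun n => measurable_scaledNorm γ n) ?_ t (hsph (basePoint E) t)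
    filter_upwards [ae_ratio_pos μ hμ hsi hprox (sph_ne_zero (basePoint E)),
      ae_all_unitDet μ hμ] with x hx1 hx
    obtain ⟨ρ, hρ0, hρ⟩ := hx1
    have hlog := ((hρ.log hρ0.ne').neg.abs).eventually_le_const
      (show |-Real.log ρ| < |-Real.log ρ| + 1 by linarith)
    refine (tendsto_div_sqrt (u := fun n =>
      -Real.log (‖randProd n x (basePoint E : E)‖ / ‖randProd n x‖)) hlog).congr fun n => ?_
    have hQ := randProd_mem_unitDet hx n
    simp only [scaledApply, scaledNorm]
    rw [Real.log_div (norm_ne_zero_iff.2 (apply_ne_zero hQ (sph_ne_zero _)))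
      (one_pos.trans_le (one_le_norm hQ)).ne']
    ring

end FA.LePage
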