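import Fermat.Agent.LePage.Distance

/-!
# Contraction of the distance of two lines

The mean of the factor of the distance over a long block is below `-1` for every pair of
directions, so a small power of the distance contracts geometrically along the products.
-/

set_option autoImplicit false

noncomputable section

namespace FA.LePage

open MeasureTheory Filter Topology Module Set
open FA.FurstenbergLyapunov FA.FurstenbergKifer FA.GuivarchRaugi
open scoped ENNReal

variable {E : Type*} [NormedAddCommGroup E] [InnerProductSpace ℝ E] [FiniteDimensional ℝ E]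
  [MeasurableSpace E] [BorelSpace E] [Nontrivial E]

variable {μ : Measure (E →L[ℝ] E)} [IsProbabilityMeasure μ] {ε : ℝ}

/-- **Some block has a negative mean factor in every pair of directions.** -/
theorem exists_negative_block (hd : 2 ≤ finrank ℝ E) (hμ : ∀ᵐ A ∂μ, A ∈ unitDet E)
    (hsi : StronglyIrreducible μ.support) (hprox : Proximal μ.support)
    (hint : Integrable (fun A => Real.log ‖A‖) μ) :
    ∃ n : ℕ, 0 < n ∧ ∀ v w : Sph E, ∫ A, distFactor A v w ∂(blockLaw μ n) ≤ -1 := by
  set π := Measure.infinitePi fun _ : ℕ => μ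
  obtain ⟨γ, l, hlγ, -, hγ, hl⟩ := exists_simple_exponent μ hd hμ hsi hprox hint
  obtain ⟨L, hL, hLm⟩ := exists_pair_exponent μ hd hμ hint
  have hLe : L = γ + l := by
    obtain ⟨x, ⟨⟨h1, h2⟩, h3⟩, hx⟩ :=
      (((hγ.and hl).and hL).and (ae_all_unitDet μ hμ)).exists
    refine tendsto_nhds_unique h3 ((h1.add h2).congr fun n => ?_)
    rw [(logPair_bounds hd (randProd_mem_unitDet hx n)).2.2, add_div]
  set η := (γ - l) / 6
  have hη : 0 < η := by positivity
  obtain ⟨n, ⟨hn1, hn2⟩, hn0, hn3⟩ :=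
    ((((uniform_mean_growth μ hμ hsi hint hγ hη).and
      (hLm.eventually_le_const (lt_add_of_pos_right L hη))).and
      ((eventually_gt_atTop 0).and
        (tendsto_natCast_atTop_atTop.eventually_ge_atTop (2 / (γ - l))))).exists)
  refine ⟨n, hn0, fun v w => ?_⟩
  have hn0' : (0 : ℝ) < n := Nat.cast_pos.2 hn0
  rw [blockLaw, integral_map (measurable_randProd n).aemeasurable
    (measurable_distFactor v w).aestronglyMeasurable]
  simp only [distFactor]
  have iP := integrable_logPair_randProd μ hd hμ hint n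
  have iv := integrable_log_randProd_apply hμ hint n v
  have iw := integrable_log_randProd_apply hμ hint n w
  rw [integral_sub (f := fun x => logPair (randProd n x) - Real.log ‖randProd n x (v : E)‖)
      (g := fun x => Real.log ‖randProd n x (w : E)‖) (iP.sub iv) iw,
    integral_sub iP iv]
  rw [div_le_iff₀ hn0'] at hn2
  have e1 := (abs_le.1 (hn1 v)).1
  have e2 := (abs_le.1 (hn1 w)).1
  rw [le_sub_iff_add_le, le_div_iff₀ hn0'] at e1 e2
  rw [div_le_iff₀ (sub_pos.2 hlγ)] at hn3
  simp only [η, hLe] at hn2 e1 e2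
  nlinarith

/-- The mean power of the distance along the products. -/
def meanDist (μ : Measure (E →L[ℝ] E)) (α : ℝ) (n : ℕ) (v w : Sph E) : ℝ≥0∞ :=
  ∫⁻ x, ENNReal.ofReal (sineDist (act (randProd n x) v) (act (randProd n x) w) ^ α)
    ∂(Measure.infinitePi fun _ : ℕ => μ)

theorem measurable_distPow {β : Type*} [MeasurableSpace β] {A : β → E →L[ℝ] E}
    {f g : β → Sph E} (hA : Measurable A) (hf : Measurable f) (hg : Measurable g) (α : ℝ) :
    Measurable fun b => sineDist (act (A b) (f b)) (act (A b) (g b)) ^ α :=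
  (measurable_sineDist (measurable_act_pair hA hf) (measurable_act_pair hA hg)).pow_const α

omit [IsProbabilityMeasure μ] in
theorem meanDist_eq (α : ℝ) (n : ℕ) (v w : Sph E) :
    meanDist μ α n v w =
      ∫⁻ A, ENNReal.ofReal (sineDist (act A v) (act A w) ^ α) ∂(blockLaw μ n) :=
  (lintegral_map (ENNReal.measurable_ofReal.comp
    (measurable_distPow measurable_id measurable_const measurable_const α))
    (measurable_randProd n)).symm

theorem meanDist_add (hμ : ∀ᵐ A ∂μ, A ∈ unitDet E) (α : ℝ) (m n : ℕ) (v w : Sph E) :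
    meanDist μ α (m + n) v w = ∫⁻ A, meanDist μ α n (act A v) (act A w) ∂(blockLaw μ m) := by
  set π := Measure.infinitePi fun _ : ℕ => μ with hπ
  have hf : Measurable fun p : (E →L[ℝ] E) × (ℕ → E →L[ℝ] E) =>
      ENNReal.ofReal (sineDist (act (randProd n p.2) (act p.1 v))
        (act (randProd n p.2) (act p.1 w)) ^ α) :=
    ENNReal.measurable_ofReal.comp (measurable_distPow ((measurable_randProd n).comp measurable_snd)
      (measurable_act_pair measurable_fst measurable_const)
      (measurable_act_pair measurable_fst measurable_const) α)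
  simp only [meanDist, blockLaw]
  rw [← lintegral_prod _ hf.aemeasurable, ← map_block μ m,
    lintegral_map hf ((measurable_randProd m).prodMk (measurable_shift.iterate m))]
  refine lintegral_congr_ae ((ae_all_unitDet μ hμ).mono fun x hx => ?_)
  have hy : ∀ i, (shift^[m] x) i ∈ unitDet E := fun i => by
    rw [shift_iterate_apply]; exact hx _
  simp only [randProd_add,
    act_mul (randProd_mem_unitDet hy n) (randProd_mem_unitDet hx m)]

/-- One application of the bound of `sineDist_act_le`. -/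
theorem meanDist_le_factor (hd : 2 ≤ finrank ℝ E) (hμ : ∀ᵐ A ∂μ, A ∈ unitDet E) {α : ℝ}
    (hα : 0 ≤ α) (n : ℕ) (v w : Sph E) :
    meanDist μ α n v w ≤ ENNReal.ofReal (sineDist v w ^ α) *
      ∫⁻ A, ENNReal.ofReal (Real.exp (α * distFactor A v w)) ∂(blockLaw μ n) := by
  rw [meanDist_eq, ← lintegral_const_mul' _ _ ENNReal.ofReal_ne_top]
  refine lintegral_mono_ae ((blockLaw_unitDet μ hμ n).mono fun A hA => ?_)
  have h0 := sineDist_nonneg v w
  rw [← ENNReal.ofReal_mul (Real.rpow_nonneg h0 _), mul_comm α, Real.exp_mul,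
    ← Real.mul_rpow h0 (Real.exp_pos _).le]
  exact ENNReal.ofReal_le_ofReal
    (Real.rpow_le_rpow (sineDist_nonneg _ _) (sineDist_act_le hd hA v w) hα)

/-- **Contraction on projective space.** -/
theorem projective_contraction (hd : 2 ≤ finrank ℝ E) (hμ : ∀ᵐ A ∂μ, A ∈ unitDet E)
    (hsi : StronglyIrreducible μ.support) (hprox : Proximal μ.support) (hε : 0 < ε)
    (hexp : ExpMoment μ ε) {α₀ : ℝ} (hα₀ : 0 < α₀) :
    ∃ α C r : ℝ, 0 < α ∧ α ≤ α₀ ∧ 0 ≤ C ∧ 0 < r ∧ r < 1 ∧ ∀ (n : ℕ) (v w : Sph E),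
      ∫ x, sineDist (act (randProd n x) v) (act (randProd n x) w) ^ α
        ∂(Measure.infinitePi fun _ : ℕ => μ) ≤ C * r ^ n * sineDist v w ^ α := by
  obtain ⟨n₀, hn₀, hneg⟩ :=
    exists_negative_block hd hμ hsi hprox (integrable_log_norm hμ hε hexp)
  obtain ⟨a, ha, hX⟩ := exists_abs_distFactor_le (E := E) hd
  set b : ℝ := 2 + 2 * (finrank ℝ E : ℕ)
  have hb : 0 ≤ b := by positivity
  have hμ₀ := blockLaw_unitDet μ hμ n₀
  obtain ⟨α, r₀, hα, hαle, hr₀, hr₁, hexp₀⟩ := exists_exp_moment_lt_one hμ₀ hε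
    (expMoment_blockLaw hμ hε.le hexp n₀) (ι := Sph E × Sph E)
    (fun i A => distFactor A i.1 i.2) (fun i => measurable_distFactor i.1 i.2) ha hb
    (fun i => hX i.1 i.2) (fun i => hneg i.1 i.2)
    (α₀ := min α₀ (ε / (b + 1))) (lt_min hα₀ (by positivity))
  have hαb : α * b ≤ ε := by
    have h := hαle.trans (min_le_right _ _)
    rw [le_div_iff₀ (by positivity)] at h
    nlinarith
  set M : ℕ → ℝ := fun j => Real.exp (α * a) * ∫ A, ‖A‖ ^ ε ∂(blockLaw μ j)
  have hM : ∀ j, 0 ≤ M j := fun j => mul_nonneg (Real.exp_pos _).le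
    (integral_nonneg fun A => Real.rpow_nonneg (norm_nonneg A) _)
  have hstep : ∀ (j : ℕ) (v w : Sph E),
      ∫⁻ A, ENNReal.ofReal (Real.exp (α * distFactor A v w)) ∂(blockLaw μ j) ≤
        ENNReal.ofReal (M j) := by
    intro j v w
    have hi := (expMoment_blockLaw hμ hε.le hexp j).const_mul (Real.exp (α * a))
    refine le_trans ?_ ((ofReal_integral_eq_lintegral_ofReal hi (.of_forall fun A => by
      positivity)).symm.trans_le (le_of_eq (by rw [integral_const_mul])))
    refine lintegral_mono_ae ((blockLaw_unitDet μ hμ j).mono fun A hA => ?_)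
    have h0 : 0 < ‖A‖ := one_pos.trans_le (one_le_norm hA)
    refine ENNReal.ofReal_le_ofReal ?_
    rw [Real.rpow_def_of_pos h0, ← Real.exp_add]
    refine Real.exp_le_exp.2 ?_
    have e1 := mul_le_mul_of_nonneg_left ((le_abs_self _).trans (hX v w A hA)) hα.le
    have e2 := mul_le_mul_of_nonneg_right hαb (Real.log_nonneg (one_le_norm hA))
    linarith
  have hblock : ∀ (q j : ℕ) (v w : Sph E), meanDist μ α (n₀ * q + j) v w ≤
      ENNReal.ofReal (r₀ ^ q * M j) * ENNReal.ofReal (sineDist v w ^ α) := by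
    intro q j
    induction q with
    | zero =>
      intro v w
      rw [mul_zero, zero_add, pow_zero, one_mul, mul_comm (ENNReal.ofReal (M j))]
      exact (meanDist_le_factor hd hμ hα.le j v w).trans (mul_le_mul_right (hstep j v w) _)
    | succ q ih =>
      intro v w
      rw [show n₀ * (q + 1) + j = n₀ + (n₀ * q + j) by ring, meanDist_add hμ]
      refine (lintegral_mono fun A => ih (act A v) (act A w)).trans ?_
      rw [lintegral_const_mul' _ _ ENNReal.ofReal_ne_top, ← meanDist_eq,
        show r₀ ^ (q + 1) * M j = r₀ ^ q * M j * r₀ by ring,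
        ENNReal.ofReal_mul (mul_nonneg (pow_nonneg hr₀.le q) (hM j)), mul_assoc]
      refine mul_le_mul_right ((meanDist_le_factor hd hμ hα.le n₀ v w).trans ?_) _
      rw [mul_comm (ENNReal.ofReal r₀)]
      exact mul_le_mul_right (hexp₀ (v, w)) _
  set r := r₀ ^ ((n₀ : ℝ)⁻¹)
  have hr : 0 < r := Real.rpow_pos_of_pos hr₀ _
  have hrn : r ^ n₀ = r₀ := Real.rpow_inv_natCast_pow hr₀.le hn₀.ne'
  have hr1 : r < 1 := Real.rpow_lt_one hr₀.le hr₁ (by positivity)
  refine ⟨α, (∑ j ∈ Finset.range n₀, M j) / r₀, r, hα, hαle.trans (min_le_left _ _),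
    div_nonneg (Finset.sum_nonneg fun j _ => hM j) hr₀.le, hr, hr1, fun n v w => ?_⟩
  have hmeas : Measurable fun x : ℕ → E →L[ℝ] E =>
      sineDist (act (randProd n x) v) (act (randProd n x) w) ^ α :=
    measurable_distPow (measurable_randProd n) measurable_const measurable_const α
  rw [integral_eq_lintegral_of_nonneg_ae
    (.of_forall fun x => Real.rpow_nonneg (sineDist_nonneg _ _) _) hmeas.aestronglyMeasurable]
  have hS : 0 ≤ (∑ j ∈ Finset.range n₀, M j) := Finset.sum_nonneg fun j _ => hM j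
  have hδ : 0 ≤ sineDist v w ^ α := Real.rpow_nonneg (sineDist_nonneg v w) _
  refine ENNReal.toReal_le_of_le_ofReal (by positivity) ?_
  have h := hblock (n / n₀) (n % n₀) v w
  rw [Nat.div_add_mod, ← ENNReal.ofReal_mul
    (mul_nonneg (pow_nonneg hr₀.le _) (hM _))] at h
  refine h.trans (ENNReal.ofReal_le_ofReal (mul_le_mul_of_nonneg_right ?_ hδ))
  have hMj : M (n % n₀) ≤ ∑ j ∈ Finset.range n₀, M j :=
    Finset.single_le_sum (fun j _ => hM j) (Finset.mem_range.2 (Nat.mod_lt _ hn₀))
  have hq : r₀ ^ (n / n₀) ≤ r ^ n / r₀ := by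
    rw [le_div_iff₀ hr₀]
    calc r₀ ^ (n / n₀) * r₀ ≤ r₀ ^ (n / n₀) * r ^ (n % n₀) :=
          mul_le_mul_of_nonneg_left (hrn ▸ pow_le_pow_of_le_one hr.le hr1.le
            (Nat.mod_lt _ hn₀).le) (pow_nonneg hr₀.le _)
      _ = r ^ n := by rw [← hrn, ← pow_mul, ← pow_add, Nat.div_add_mod]
  calc r₀ ^ (n / n₀) * M (n % n₀) ≤ r ^ n / r₀ * ∑ j ∈ Finset.range n₀, M j :=
        mul_le_mul hq hMj (hM _) (div_nonneg (pow_nonneg hr.le n) hr₀.le)
    _ = _ := by ring

end FA.LePage
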