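import Fermat.Agent.LePage.Clt
import Fermat.Agent.GuivarchRaugi.Plane

/-!
# The variance is positive

A vanishing variance would make every operator of the support grow at the exponent along its
powers, which a parabolic operator does not.
-/

set_option autoImplicit false

noncomputable section

namespace FA.LePage

open MeasureTheory Filter Topology Module Set
open FA.FurstenbergLyapunov FA.FurstenbergKifer FA.GuivarchRaugi
open scoped BoundedContinuousFunction

variable {E : Type*} [NormedAddCommGroup E] [InnerProductSpace ℝ E] [FiniteDimensional ℝ E]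
  [MeasurableSpace E] [BorelSpace E] [Nontrivial E]

omit [MeasurableSpace E] [BorelSpace E] in
theorem continuousAt_act_pair {p : (E →L[ℝ] E) × Sph E} (hp : p.1 ∈ unitDet E) :
    ContinuousAt (fun q : (E →L[ℝ] E) × Sph E => act q.1 q.2) p :=
  (continuousAt_dir (apply_ne_zero hp (sph_ne_zero p.2))).comp_of_eq
    (continuous_fst.clm_apply (continuous_subtype_val.comp continuous_snd)).continuousAt rfl

omit [MeasurableSpace E] [BorelSpace E] in
theorem continuousAt_increment_left (γ : ℝ) (ψ : Sph E →ᵇ ℝ) {A : E →L[ℝ] E} (hA : A ∈ unitDet E)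
    (v : Sph E) : ContinuousAt (fun B : E →L[ℝ] E => increment γ ψ B v) A := by
  have h1 : ContinuousAt (fun B : E →L[ℝ] E => B (v : E)) A :=
    (continuous_id.clm_apply continuous_const).continuousAt
  have h2 : ContinuousAt (fun B : E →L[ℝ] E => act B v) A :=
    (continuousAt_dir (apply_ne_zero hA (sph_ne_zero v))).comp_of_eq h1 rfl
  exact (((h1.norm.log (norm_ne_zero_iff.2 (apply_ne_zero hA (sph_ne_zero v)))).sub
    continuousAt_const).add (ψ.continuous.continuousAt.comp h2)).sub continuousAt_const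

variable {μ : Measure (E →L[ℝ] E)} [IsProbabilityMeasure μ] {ε γ : ℝ}

omit [IsProbabilityMeasure μ] in
/-- The support of a stationary measure is kept by the support of the law. -/
theorem act_mem_support (hμ : ∀ᵐ A ∂μ, A ∈ unitDet E) (ν : Measure (Sph E))
    [IsProbabilityMeasure ν] (hν : stepLaw μ ν = ν) {A : E →L[ℝ] E} (hA : A ∈ μ.support)
    {v : Sph E} (hv : v ∈ ν.support) : act A v ∈ ν.support := by
  refine (Measure.mem_support_iff_forall _).2 fun U hU => ?_
  obtain ⟨O, hOU, hO, hAO⟩ := mem_nhds_iff.1 hU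
  have hAd := Measure.support_subset_of_isClosed isClosed_unitDet hμ hA
  obtain ⟨S, hS, T, hT, hST⟩ := mem_nhds_prod_iff.1
    ((continuousAt_act_pair (p := (A, v)) hAd).preimage_mem_nhds (hO.mem_nhds hAO))
  have h1 := (Measure.mem_support_iff_forall _).1 hA S hS
  have h2 := (Measure.mem_support_iff_forall _).1 hv T hT
  refine lt_of_lt_of_le ?_ (measure_mono hOU)
  rw [← hν, stepLaw, Measure.map_apply (measurable_act_pair measurable_fst measurable_snd)
    hO.measurableSet]
  exact (ENNReal.mul_pos h1.ne' h2.ne').trans_le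
    ((Measure.prod_prod S T).symm.trans_le (measure_mono hST))

omit [IsProbabilityMeasure μ] in
/-- **A vanishing variance makes every operator of the support grow at the exponent.** -/
theorem variance_pos (hμ : ∀ᵐ A ∂μ, A ∈ unitDet E) (hε : 0 < ε) (hexp : ExpMoment μ ε)
    (ψ : Sph E →ᵇ ℝ) (ν : Measure (Sph E)) [IsProbabilityMeasure ν] (hν : stepLaw μ ν = ν)
    {A : E →L[ℝ] E} (hA : A ∈ μ.support) {l : ℝ}
    (hl : Tendsto (fun k : ℕ => Real.log ‖A ^ k‖ / k) atTop (𝓝 l)) (hlγ : l < γ) :
    0 < ∫ v, ∫ B, increment γ ψ B v ^ 2 ∂μ ∂ν := by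
  obtain ⟨K₂, hK₂0, hK₂⟩ := exists_pow_increment_le (E := E) hε γ ψ 2
  have hm : ∀ v, Measurable fun B : E →L[ℝ] E => increment γ ψ B v ^ 2 := fun v =>
    (measurable_increment γ ψ measurable_id measurable_const).pow_const 2
  have hsq : ∀ B ∈ unitDet E, ∀ v, ‖increment γ ψ B v ^ 2‖ ≤ K₂ * ‖B‖ ^ ε := fun B hB v => by
    rw [norm_pow, Real.norm_eq_abs]; exact hK₂ B hB v
  set V : Sph E → ℝ := fun v => ∫ B, increment γ ψ B v ^ 2 ∂μ
  have hVc : Continuous V := continuous_avgFun μ (φ := fun B v => increment γ ψ B v ^ 2) hμ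
    (fun v => (hm v).aestronglyMeasurable) (fun B hB => (continuous_increment γ ψ hB).pow 2)
    (hexp.const_mul K₂) fun v => hμ.mono fun B hB => hsq B hB v
  have hV0 : ∀ v, 0 ≤ V v := fun v => integral_nonneg fun B => sq_nonneg _
  refine lt_of_le_of_ne (integral_nonneg hV0) fun h => ?_
  have hVzero : ∀ v ∈ ν.support, V v = 0 := by
    intro v hv
    by_contra hne
    have hae := (integral_eq_zero_iff_of_nonneg hV0
      ((BoundedContinuousFunction.mkOfCompact ⟨V, hVc⟩).integrable ν)).1 h.symm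
    exact ((Measure.mem_support_iff_forall _).1 hv _
      (hVc.continuousAt.eventually_ne hne)).ne' (ae_iff.1 hae)
  have hAd : ∀ B ∈ μ.support, B ∈ unitDet E :=
    Measure.support_subset_of_isClosed isClosed_unitDet hμ
  have hzero : ∀ v ∈ ν.support, ∀ B ∈ μ.support, increment γ ψ B v = 0 := by
    intro v hv B hB
    by_contra hne
    have hi : Integrable (fun B => increment γ ψ B v ^ 2) μ :=
      integrable_of_le hμ hexp (hm v).aestronglyMeasurable hK₂0 le_rfl fun B hB => hsq B hB v
    have hae := (integral_eq_zero_iff_of_nonneg (fun B => sq_nonneg _) hi).1 (hVzero v hv)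
    exact ((Measure.mem_support_iff_forall _).1 hB _
      (((continuousAt_increment_left γ ψ (hAd B hB) v).pow 2).eventually_ne
        (pow_ne_zero 2 hne))).ne' (ae_iff.1 hae)
  obtain ⟨v, hv⟩ := Measure.nonempty_support (IsProbabilityMeasure.ne_zero ν)
  have hpow : ∀ k : ℕ, A ^ k ∈ unitDet E ∧ act (A ^ k) v ∈ ν.support ∧
      centred γ ψ k (A ^ k) v = 0 := by
    intro k
    induction k with
    | zero => exact ⟨one_mem_unitDet, by rwa [pow_zero, act_one], by simp [centred, act_one]⟩
    | succ k ih =>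
      obtain ⟨h1, h2, h3⟩ := ih
      rw [pow_succ']
      refine ⟨mul_mem_unitDet (hAd A hA) h1, ?_, ?_⟩
      · rw [act_mul (hAd A hA) h1]
        exact act_mem_support hμ ν hν hA h2
      · rw [centred_add γ ψ k 1 h1 (hAd A hA), h3, centred_one, hzero _ h2 A hA, add_zero]
  have hlow : ∀ k : ℕ, (k : ℝ) * γ - 2 * ‖ψ‖ ≤ Real.log ‖A ^ k‖ := fun k => by
    obtain ⟨h1, -, h3⟩ := hpow k
    rw [centred] at h3
    have e1 : Real.log ‖(A ^ k) (v : E)‖ ≤ Real.log ‖A ^ k‖ :=
      Real.log_le_log (norm_pos_iff.2 (apply_ne_zero h1 (sph_ne_zero v))) (by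
        simpa [norm_eq_of_mem_sphere v] using (A ^ k).le_opNorm (v : E))
    have e2 := (abs_le.1 (Real.norm_eq_abs _ ▸ ψ.norm_coe_le_norm (act (A ^ k) v))).2
    have e3 := (abs_le.1 (Real.norm_eq_abs _ ▸ ψ.norm_coe_le_norm v)).1
    linarith
  have h4 : Tendsto (fun k : ℕ => γ - 2 * ‖ψ‖ / k) atTop (𝓝 γ) := by
    simpa using (tendsto_const_nhds (x := 2 * ‖ψ‖)).div_atTop
      (tendsto_natCast_atTop_atTop (R := ℝ)) |>.const_sub γ
  refine hlγ.not_ge (le_of_tendsto_of_tendsto h4 hl ?_)
  filter_upwards [eventually_gt_atTop 0] with k hk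
  rw [le_div_iff₀ (Nat.cast_pos.2 hk), sub_mul, div_mul_cancel₀ _ (Nat.cast_ne_zero.2 hk.ne')]
  linarith [hlow k]

/-! ### The two shears -/

theorem norm_upperShear_pow_le (k : ℕ) : ‖upperShear ^ k‖ ≤ k + 2 := by
  refine ContinuousLinearMap.opNorm_le_bound _ (by positivity) fun v => ?_
  obtain ⟨h0, h1⟩ := upperShear_pow_apply k v
  set w := (upperShear ^ k) v
  have hw : w = w 0 • EuclideanSpace.single 0 (1 : ℝ) + w 1 • EuclideanSpace.single 1 (1 : ℝ) := by
    ext i
    fin_cases i <;> simp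
  have hle : ∀ i, |v i| ≤ ‖v‖ := fun i => PiLp.norm_apply_le v i
  have e1 : ‖w‖ ≤ |w 0| + |w 1| := by
    conv_lhs => rw [hw]
    exact (norm_add_le _ _).trans (by simp [norm_smul])
  rw [h0, h1] at e1
  have e2 := abs_add_le (v 0) (k * v 1)
  rw [abs_mul, Nat.abs_cast] at e2
  have e3 := mul_le_mul_of_nonneg_left (hle 1) (Nat.cast_nonneg (α := ℝ) k)
  linarith [hle 0, hle 1]

theorem tendsto_log_upperShear_pow :
    Tendsto (fun k : ℕ => Real.log ‖upperShear ^ k‖ / k) atTop (𝓝 0) := by
  have h : Tendsto (fun k : ℕ => Real.log ((k : ℝ) + 2) / k) atTop (𝓝 0) := by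
    refine ((Real.tendsto_pow_log_div_mul_add_atTop 1 (-2) 1 one_ne_zero).comp
      (tendsto_atTop_add_const_right _ 2 tendsto_natCast_atTop_atTop)).congr fun k => ?_
    simp
  have hU : ∀ k : ℕ, upperShear ^ k ∈ unitDet Plane := fun k => by
    induction k with
    | zero => exact one_mem_unitDet
    | succ k ih =>
      rw [pow_succ]
      exact mul_mem_unitDet ih (Measure.support_subset_of_isClosed isClosed_unitDet shearLaw_ae
        upperShear_mem_support)
  exact squeeze_zero (fun k => div_nonneg (Real.log_nonneg (one_le_norm (hU k))) k.cast_nonneg)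
    (fun k => div_le_div_of_nonneg_right (Real.log_le_log
      (one_pos.trans_le (one_le_norm (hU k))) (norm_upperShear_pow_le k)) k.cast_nonneg) h

theorem shearLaw_expMoment (ε : ℝ) : ExpMoment shearLaw ε :=
  Integrable.add_measure ((integrable_dirac (enorm_lt_top)).smul_measure (by simp))
    ((integrable_dirac (enorm_lt_top)).smul_measure (by simp))

/-- **Random products of the two shears satisfy the central limit theorem with positive
variance.** -/
theorem shearLaw_clt :
    ∃ γ σ2 : ℝ, 0 < γ ∧ 0 < σ2 ∧ ∀ t : ℝ,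
      Tendsto (fun n => charFun ((Measure.infinitePi fun _ : ℕ => shearLaw).map
        (scaledNorm γ n)) t) atTop (𝓝 ((Real.exp (-(σ2 * t ^ 2) / 2) : ℝ) : ℂ)) := by
  have hd : finrank ℝ Plane = 2 := finrank_euclideanSpace_fin
  have hsupp := Measure.support_subset_of_isClosed isClosed_unitDet shearLaw_ae
  obtain ⟨γ, l, -, hγ0, hγ, -⟩ := shearLaw_simple
  obtain ⟨ψ, σ2, -, -, hσ, -, hN⟩ := exists_clt (μ := shearLaw) hd.ge shearLaw_ae
    shearLaw_irreducible (proximal_of_finrank_two hd hsupp shearLaw_unbounded) one_pos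
    (shearLaw_expMoment 1) hγ
  obtain ⟨ν, hν⟩ := exists_stationary shearLaw shearLaw_ae
  refine ⟨γ, σ2, hγ0, ?_, hN⟩
  rw [hσ (ν : Measure (Sph Plane)) inferInstance hν]
  exact variance_pos shearLaw_ae one_pos (shearLaw_expMoment 1) ψ _ hν upperShear_mem_support
    tendsto_log_upperShear_pow hγ0

end FA.LePage
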