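import Fermat.Agent.GuivarchRaugi.Simplicity
import Fermat.Agent.LePage.Moments

/-!
# The distance of two lines

The sine of the angle of two directions is the length of the rejection of one from the other.  An
operator multiplies it by at most the product of the two greatest singular values over the lengths
of the two images, and `log ‖A v‖` is Hölder for it with a constant a power of `‖A‖`.
-/

set_option autoImplicit false

noncomputable section

namespace FA.LePage

open MeasureTheory Filter Topology Module Set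
open FA.FurstenbergLyapunov FA.FurstenbergKifer FA.GuivarchRaugi
open scoped RealInnerProductSpace

variable {E : Type*} [NormedAddCommGroup E] [InnerProductSpace ℝ E] [FiniteDimensional ℝ E]
  [MeasurableSpace E] [BorelSpace E] [Nontrivial E]

/-- The sine of the angle of the lines of two unit vectors. -/
def sineDist (v w : Sph E) : ℝ := ‖rej (v : E) (w : E)‖

omit [FiniteDimensional ℝ E] [MeasurableSpace E] [BorelSpace E] [Nontrivial E] in
theorem sineDist_nonneg (v w : Sph E) : 0 ≤ sineDist v w := norm_nonneg _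

omit [FiniteDimensional ℝ E] [MeasurableSpace E] [BorelSpace E] [Nontrivial E] in
theorem sineDist_le_one (v w : Sph E) : sineDist v w ≤ 1 :=
  (norm_rej_le (sph_ne_zero v) _).trans (norm_eq_of_mem_sphere w).le

omit [Nontrivial E] in
theorem measurable_sineDist {α : Type*} [MeasurableSpace α] {f g : α → Sph E} (hf : Measurable f)
    (hg : Measurable g) : Measurable fun a => sineDist (f a) (g a) :=
  continuous_norm.measurable.comp (measurable_rej.comp
    ((measurable_subtype_coe.comp hf).prodMk (measurable_subtype_coe.comp hg)))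

omit [FiniteDimensional ℝ E] [MeasurableSpace E] [BorelSpace E] [Nontrivial E] in
theorem continuous_sineDist : Continuous fun p : Sph E × Sph E => sineDist p.1 p.2 :=
  (continuous_rej_comp (continuous_subtype_val.comp continuous_fst)
    (continuous_subtype_val.comp continuous_snd) fun p => sph_ne_zero p.1).norm

omit [FiniteDimensional ℝ E] [MeasurableSpace E] [BorelSpace E] [Nontrivial E] in
theorem sineDist_sq (v w : Sph E) :
    sineDist v w ^ 2 = 1 - ⟪(v : E), (w : E)⟫ ^ 2 := by
  rw [sineDist, rej, norm_eq_of_mem_sphere v, one_pow, div_one, norm_sub_sq_real,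
    real_inner_smul_right, norm_smul, norm_eq_of_mem_sphere v, norm_eq_of_mem_sphere w, mul_one,
    Real.norm_eq_abs, sq_abs, real_inner_comm (v : E) (w : E)]
  ring

omit [FiniteDimensional ℝ E] [MeasurableSpace E] [BorelSpace E] [Nontrivial E] in
/-- One of the two signs brings the vectors to the distance of their lines. -/
theorem exists_norm_sub_le (v w : Sph E) :
    ∃ s : ℝ, |s| = 1 ∧ ‖(v : E) - s • (w : E)‖ ≤ 2 * sineDist v w := by
  set c := ⟪(v : E), (w : E)⟫ with hc
  have hc1 : |c| ≤ 1 := by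
    simpa [norm_eq_of_mem_sphere] using abs_real_inner_le_norm (v : E) (w : E)
  obtain ⟨s, hs, hsc⟩ : ∃ s : ℝ, |s| = 1 ∧ s * c = |c| := by
    rcases le_total 0 c with h | h
    · exact ⟨1, abs_one, by rw [one_mul, abs_of_nonneg h]⟩
    · exact ⟨-1, by simp, by rw [abs_of_nonpos h]; ring⟩
  refine ⟨s, hs, (sq_le_sq₀ (norm_nonneg _) (mul_nonneg two_pos.le (sineDist_nonneg v w))).1 ?_⟩
  rw [mul_pow, sineDist_sq, ← hc, norm_sub_sq_real, real_inner_smul_right, ← hc, hsc, norm_smul,
    norm_eq_of_mem_sphere v, norm_eq_of_mem_sphere w, Real.norm_eq_abs, hs, ← sq_abs c]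
  nlinarith [abs_nonneg c]

/-- The logarithm of the factor of the distance. -/
def distFactor (A : E →L[ℝ] E) (v w : Sph E) : ℝ :=
  logPair A - Real.log ‖A (v : E)‖ - Real.log ‖A (w : E)‖

/-- **An operator multiplies the distance by at most the exponential of the factor.** -/
theorem sineDist_act_le (hd : 2 ≤ finrank ℝ E)
    {A : E →L[ℝ] E} (hA : A ∈ unitDet E) (v w : Sph E) :
    sineDist (act A v) (act A w) ≤ sineDist v w * Real.exp (distFactor A v w) := by
  have hv := apply_ne_zero hA (sph_ne_zero v)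
  have hw := apply_ne_zero hA (sph_ne_zero w)
  have key : sineDist (act A v) (act A w) = ‖A (w : E)‖⁻¹ * ‖rej (A (v : E)) (A (w : E))‖ := by
    rw [sineDist, act, act, coe_dir hv, coe_dir hw,
      rej_smul_left (inv_ne_zero (norm_ne_zero_iff.2 hv)), rej_smul_right, norm_smul, norm_inv,
      norm_norm]
  rw [key]
  by_cases h : rej (v : E) (w : E) = 0
  · obtain ⟨c, hc⟩ := exists_sub_eq_rej (v : E) (w : E)
    rw [h, add_zero] at hc
    have h0 : rej (A (v : E)) (A (w : E)) = 0 := by
      rw [hc, map_smul, show c • A (v : E) = c • A (v : E) + 0 from (add_zero _).symm,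
        rej_add_smul hv]
      simp [rej]
    rw [h0, norm_zero, mul_zero]
    exact mul_nonneg (sineDist_nonneg v w) (Real.exp_pos _).le
  obtain ⟨base⟩ := nonempty_frame (E := E) hd
  set p := frameOf base ((v : E), (w : E))
  obtain ⟨g1, g2⟩ := images_ne_zero hA p
  obtain ⟨e1, e2⟩ := image_frameOf A (base := base) (z := ((v : E), (w : E))) (sph_ne_zero v) h g1
  rw [norm_eq_of_mem_sphere v, one_smul] at e1
  have hfs := factor_mul_le hd hA p
  rw [fstFactor, ← e1, sndFactor] at hfs
  rw [e2, norm_smul, norm_norm]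
  obtain ⟨-, -, hlp⟩ := logPair_bounds hd hA
  have hA0 : 0 < ‖A‖ := one_pos.trans_le (one_le_norm hA)
  have hσ := singularValue_one_pos hd hA
  rw [distFactor, hlp, Real.exp_sub, Real.exp_sub, Real.exp_add, Real.exp_log hA0,
    Real.exp_log hσ, Real.exp_log (norm_pos_iff.2 hv), Real.exp_log (norm_pos_iff.2 hw)]
  have hv' : 0 < ‖A (v : E)‖ := norm_pos_iff.2 hv
  have hw' : 0 < ‖A (w : E)‖ := norm_pos_iff.2 hw
  show ‖A (w : E)‖⁻¹ * (sineDist v w * ‖rej (A p.1.1) (A p.1.2)‖) ≤ _
  rw [div_div, mul_comm (‖A (w : E)‖⁻¹), mul_assoc]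
  refine mul_le_mul_of_nonneg_left ?_ (sineDist_nonneg v w)
  rw [← div_eq_mul_inv, div_le_div_iff₀ hw' (mul_pos hv' hw')]
  nlinarith

omit [Nontrivial E] in
theorem measurable_distFactor (v w : Sph E) : Measurable fun A => distFactor A v w :=
  (measurable_logPair.sub (measurable_log_apply measurable_id measurable_const)).sub
    (measurable_log_apply measurable_id measurable_const)

/-- The factor is linear in `log ‖A‖`. -/
theorem exists_abs_distFactor_le (hd : 2 ≤ finrank ℝ E) :
    ∃ a : ℝ, 0 ≤ a ∧ ∀ v w : Sph E, ∀ A ∈ unitDet E,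
      |distFactor A v w| ≤ a + (2 + 2 * finrank ℝ E) * Real.log ‖A‖ := by
  obtain ⟨C, hC0, hC⟩ := exists_abs_log_apply_le (E := E)
  refine ⟨2 * C, by positivity, fun v w A hA => ?_⟩
  obtain ⟨h1, h2, -⟩ := logPair_bounds hd hA
  have hv := abs_le.1 (hC A hA v (norm_eq_of_mem_sphere v))
  have hw := abs_le.1 (hC A hA w (norm_eq_of_mem_sphere w))
  have := Real.log_nonneg (one_le_norm hA)
  rw [distFactor, abs_le]
  constructor <;> nlinarith

/-- **`log ‖A v‖` is Hölder in the direction.** -/
theorem exists_log_holder {α : ℝ} (hα : 0 < α) (hα1 : α ≤ 1) :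
    ∃ K : ℝ, 0 ≤ K ∧ ∀ A ∈ unitDet E, ∀ v w : Sph E,
      |Real.log ‖A (v : E)‖ - Real.log ‖A (w : E)‖| ≤
        K * ‖A‖ ^ (α * (finrank ℝ E + 2)) * sineDist v w ^ α := by
  obtain ⟨C, hC0, hC⟩ := exists_abs_log_apply_le (E := E)
  obtain ⟨K, hK0, hK⟩ := exists_log_pow_le (1 + 2 * C) (2 * finrank ℝ E) 1 hα
  refine ⟨(2 * Real.exp C) ^ α * K, by positivity, fun A hA v w => ?_⟩
  have h1 := one_le_norm hA
  have h0 : 0 < ‖A‖ := one_pos.trans_le h1
  set d : ℝ := ((finrank ℝ E : ℕ) : ℝ) with hddef
  have hd0 : 0 ≤ d := Nat.cast_nonneg _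
  set P := 2 * Real.exp C * ‖A‖ ^ (d + 1) * sineDist v w
  have hPα : P ^ α = (2 * Real.exp C) ^ α * ‖A‖ ^ (α * (d + 1)) * sineDist v w ^ α := by
    rw [Real.mul_rpow (by positivity) (sineDist_nonneg v w),
      Real.mul_rpow (by positivity) (by positivity), ← Real.rpow_mul h0.le, mul_comm (d + 1)]
  set x := |Real.log ‖A (v : E)‖ - Real.log ‖A (w : E)‖|
  have hQ : x ≤ 2 * C + 2 * d * Real.log ‖A‖ := by
    have hv := abs_le.1 (hC A hA v (norm_eq_of_mem_sphere v))
    have hw := abs_le.1 (hC A hA w (norm_eq_of_mem_sphere w))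
    rw [abs_le]; constructor <;> linarith
  have hP : x ≤ P := by
    obtain ⟨s, hs, hsd⟩ := exists_norm_sub_le v w
    have hlow : ∀ u : Sph E, (Real.exp C)⁻¹ * ‖A‖ ^ (-d) ≤ ‖A (u : E)‖ := fun u => by
      have hu := (abs_le.1 (hC A hA u (norm_eq_of_mem_sphere u))).1
      have := Real.exp_le_exp.2 hu
      rw [Real.exp_log (norm_pos_iff.2 (apply_ne_zero hA (sph_ne_zero u)))] at this
      refine le_of_eq_of_le ?_ this
      rw [Real.rpow_def_of_pos h0, ← Real.exp_neg, ← Real.exp_add]
      congr 1; ring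
    set m := (Real.exp C)⁻¹ * ‖A‖ ^ (-d)
    have hm : 0 < m := by positivity
    have hb : |‖A (v : E)‖ - ‖A (w : E)‖| ≤ 2 * ‖A‖ * sineDist v w := by
      rw [show ‖A (w : E)‖ = ‖A (s • (w : E))‖ by
        rw [map_smul, norm_smul, Real.norm_eq_abs, hs, one_mul]]
      refine (abs_norm_sub_norm_le _ _).trans ?_
      rw [← map_sub]
      exact (A.le_opNorm _).trans ((mul_le_mul_of_nonneg_left hsd h0.le).trans_eq (by ring))
    have hl : ∀ a b : ℝ, m ≤ a → m ≤ b → Real.log a - Real.log b ≤ |a - b| / m := by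
      intro a b ha hb
      have hb0 := hm.trans_le hb
      rw [← Real.log_div (hm.trans_le ha).ne' hb0.ne']
      calc Real.log (a / b) ≤ a / b - 1 := Real.log_le_sub_one_of_pos
            (div_pos (hm.trans_le ha) hb0)
        _ = (a - b) / b := by rw [sub_div, div_self hb0.ne']
        _ ≤ |a - b| / b := div_le_div_of_nonneg_right (le_abs_self _) hb0.le
        _ ≤ |a - b| / m := div_le_div_of_nonneg_left (abs_nonneg _) hm hb
    have hPm : 2 * ‖A‖ * sineDist v w / m = P := by
      simp only [m, P]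
      rw [Real.rpow_neg h0.le, Real.rpow_add_one h0.ne']
      field_simp
    rw [abs_le, neg_le, neg_sub]
    have e1 := hl _ _ (hlow v) (hlow w)
    have e2 := hl _ _ (hlow w) (hlow v)
    rw [abs_sub_comm] at e2
    have e3 := (div_le_div_of_nonneg_right hb hm.le).trans_eq hPm
    exact ⟨e2.trans e3, e1.trans e3⟩
  rcases (show (0 : ℝ) ≤ x from abs_nonneg _).eq_or_lt with hx | hx
  · rw [← hx]
    exact mul_nonneg (by positivity) (Real.rpow_nonneg (sineDist_nonneg _ _) _)
  calc x = x ^ α * x ^ (1 - α) := by rw [← Real.rpow_add hx]; simp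
    _ ≤ P ^ α * (1 + 2 * C + 2 * d * Real.log ‖A‖) := by
        refine mul_le_mul (Real.rpow_le_rpow hx.le hP hα.le) ?_ (by positivity)
          (Real.rpow_nonneg (hx.le.trans hP) _)
        rcases le_total x 1 with h | h
        · have : x ^ (1 - α) ≤ 1 := Real.rpow_le_one hx.le h (by linarith)
          have := mul_nonneg (mul_nonneg two_pos.le hd0) (Real.log_nonneg h1)
          linarith
        · have : x ^ (1 - α) ≤ x ^ (1 : ℝ) := Real.rpow_le_rpow_of_exponent_le h (by linarith)
          rw [Real.rpow_one] at this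
          linarith
    _ ≤ P ^ α * (K * ‖A‖ ^ α) := by
        refine mul_le_mul_of_nonneg_left ?_ (Real.rpow_nonneg (hx.le.trans hP) _)
        refine le_trans ?_ (hK ‖A‖ h1)
        rw [pow_one]
        exact le_abs_self _
    _ = _ := by
        rw [hPα, show α * (d + 2) = α * (d + 1) + α by ring, Real.rpow_add h0]
        ring

end FA.LePage
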