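import Fermat.Agent.LePage.Variance
import Fermat.Agent.Lindeberg.Taylor
import Mathlib.Analysis.SpecialFunctions.Trigonometric.Bounds

/-!
# The twisted averaging operator

The characteristic function of the centred growth obeys a recursion whose one-step defect is the
variance minus its mean, which the iterates of the operator average out.
-/

set_option autoImplicit false

noncomputable section

namespace FA.LePage

open MeasureTheory Filter Topology Module Set
open FA.FurstenbergLyapunov FA.FurstenbergKifer FA.GuivarchRaugi FA.ProjectiveStationary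
open FA.Lindeberg (expRem norm_expRem_le)
open Complex (I)
open scoped BoundedContinuousFunction

variable {E : Type*} [NormedAddCommGroup E] [InnerProductSpace ℝ E] [FiniteDimensional ℝ E]
  [MeasurableSpace E] [BorelSpace E] [Nontrivial E]

/-- The centred growth of a product of `n` factors. -/
def centred (γ : ℝ) (ψ : Sph E →ᵇ ℝ) (n : ℕ) (A : E →L[ℝ] E) (v : Sph E) : ℝ :=
  Real.log ‖A (v : E)‖ - n * γ + ψ (act A v) - ψ v

omit [FiniteDimensional ℝ E] [MeasurableSpace E] [BorelSpace E] in
theorem centred_one (γ : ℝ) (ψ : Sph E →ᵇ ℝ) (A : E →L[ℝ] E) (v : Sph E) :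
    centred γ ψ 1 A v = increment γ ψ A v := by
  rw [centred, increment, Nat.cast_one, one_mul]

theorem measurable_centred (γ : ℝ) (ψ : Sph E →ᵇ ℝ) (n : ℕ) {β : Type*} [MeasurableSpace β]
    {A : β → E →L[ℝ] E} {f : β → Sph E} (hA : Measurable A) (hf : Measurable f) :
    Measurable fun b => centred γ ψ n (A b) (f b) :=
  (((measurable_log_apply hA (measurable_subtype_coe.comp hf)).sub_const _).add
    (ψ.continuous.measurable.comp (measurable_act_pair hA hf))).sub
    (ψ.continuous.measurable.comp hf)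

omit [MeasurableSpace E] [BorelSpace E] in
theorem centred_add (γ : ℝ) (ψ : Sph E →ᵇ ℝ) (j m : ℕ) {A B : E →L[ℝ] E} (hA : A ∈ unitDet E)
    (hB : B ∈ unitDet E) (v : Sph E) :
    centred γ ψ (j + m) (B * A) v = centred γ ψ j A v + centred γ ψ m B (act A v) := by
  simp only [centred, log_apply_act hA hB v, act_mul hB hA, Nat.cast_add]
  ring

variable (μ : Measure (E →L[ℝ] E))

/-- The twisted iterate of a function. -/
def twist (γ : ℝ) (ψ : Sph E →ᵇ ℝ) (s : ℝ) (n : ℕ) (f : Sph E →ᵇ ℝ) (v : Sph E) : ℂ :=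
  ∫ x, Complex.exp ((s * centred γ ψ n (randProd n x) v : ℝ) * I) *
    (f (act (randProd n x) v) : ℂ) ∂(Measure.infinitePi fun _ : ℕ => μ)

variable {μ} [IsProbabilityMeasure μ] (γ : ℝ) (ψ : Sph E →ᵇ ℝ) (s : ℝ)

theorem measurable_twistKernel (n : ℕ) (f : Sph E →ᵇ ℝ) {β : Type*} [MeasurableSpace β]
    {A : β → E →L[ℝ] E} {g : β → Sph E} (hA : Measurable A) (hg : Measurable g) :
    Measurable fun b => Complex.exp ((s * centred γ ψ n (A b) (g b) : ℝ) * I) *
      (f (act (A b) (g b)) : ℂ) :=
  (Complex.continuous_exp.measurable.comp ((Complex.measurable_ofReal.comp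
    ((measurable_centred γ ψ n hA hg).const_mul s)).mul_const I)).mul
    (Complex.measurable_ofReal.comp (f.continuous.measurable.comp (measurable_act_pair hA hg)))

omit [InnerProductSpace ℝ E] [FiniteDimensional ℝ E] [MeasurableSpace E] [BorelSpace E]
  [Nontrivial E] in
theorem norm_twistKernel_le (f : Sph E →ᵇ ℝ) (y : ℝ) (w : Sph E) :
    ‖Complex.exp ((y : ℂ) * I) * (f w : ℂ)‖ ≤ ‖f‖ := by
  rw [norm_mul, Complex.norm_exp_ofReal_mul_I, one_mul, Complex.norm_real]
  exact f.norm_coe_le_norm w

theorem twist_add (hμ : ∀ᵐ A ∂μ, A ∈ unitDet E) (f : Sph E →ᵇ ℝ) (j m : ℕ) (v : Sph E) :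
    twist μ γ ψ s (j + m) f v = ∫ A, Complex.exp ((s * centred γ ψ j A v : ℝ) * I) *
      twist μ γ ψ s m f (act A v) ∂(blockLaw μ j) := by
  set π := Measure.infinitePi fun _ : ℕ => μ with hπ
  set F : (E →L[ℝ] E) × (ℕ → E →L[ℝ] E) → ℂ := fun p =>
    Complex.exp ((s * centred γ ψ j p.1 v : ℝ) * I) *
      (Complex.exp ((s * centred γ ψ m (randProd m p.2) (act p.1 v) : ℝ) * I) *
        (f (act (randProd m p.2) (act p.1 v)) : ℂ))
  have hFm : Measurable F := (Complex.continuous_exp.measurable.comp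
    ((Complex.measurable_ofReal.comp
      ((measurable_centred γ ψ j measurable_fst measurable_const).const_mul s)).mul_const I)).mul
    (measurable_twistKernel γ ψ s m f ((measurable_randProd m).comp measurable_snd)
      (measurable_act_pair measurable_fst measurable_const))
  have hFi : Integrable F ((blockLaw μ j).prod π) := Integrable.of_bound hFm.aestronglyMeasurable
    ‖f‖ (.of_forall fun p => by
      rw [norm_mul, Complex.norm_exp_ofReal_mul_I, one_mul]
      exact norm_twistKernel_le f _ _)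
  simp only [twist]
  rw [show ∫ A, Complex.exp ((s * centred γ ψ j A v : ℝ) * I) *
      ∫ x, Complex.exp ((s * centred γ ψ m (randProd m x) (act A v) : ℝ) * I) *
        (f (act (randProd m x) (act A v)) : ℂ) ∂π ∂(blockLaw μ j) =
      ∫ A, ∫ x, F (A, x) ∂π ∂(blockLaw μ j) from
    integral_congr_ae (.of_forall fun A => (integral_const_mul _ _).symm),
    ← integral_prod F hFi, blockLaw, ← map_block μ j,
    integral_map ((measurable_randProd j).prodMk (measurable_shift.iterate j)).aemeasurable
      hFm.aestronglyMeasurable]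
  refine integral_congr_ae ((ae_all_unitDet μ hμ).mono fun x hx => ?_)
  have hy : ∀ i, (shift^[j] x) i ∈ unitDet E := fun i => by
    rw [shift_iterate_apply]; exact hx _
  have h1 := randProd_mem_unitDet hx j
  have h2 := randProd_mem_unitDet hy m
  simp only [F, randProd_add, centred_add γ ψ j m h1 h2, act_mul h2 h1, mul_add,
    Complex.ofReal_add, add_mul, Complex.exp_add, mul_assoc]

omit [FiniteDimensional ℝ E] [MeasurableSpace E] [BorelSpace E] in
theorem norm_twist_le (n : ℕ) (f : Sph E →ᵇ ℝ) (v : Sph E) :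
    ‖twist μ γ ψ s n f v‖ ≤ ‖f‖ :=
  (norm_integral_le_of_norm_le_const (.of_forall fun _ => norm_twistKernel_le f _ _)).trans_eq
    (by rw [probReal_univ, mul_one])

/-- The mean size of the centred growth is bounded uniformly in the direction. -/
theorem exists_integral_abs_centred_le (hμ : ∀ᵐ A ∂μ, A ∈ unitDet E)
    (hint : Integrable (fun A => Real.log ‖A‖) μ) (n : ℕ) :
    ∃ M : ℝ, 0 ≤ M ∧ ∀ v : Sph E,
      Integrable (fun x => centred γ ψ n (randProd n x) v)
          (Measure.infinitePi fun _ : ℕ => μ) ∧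
        ∫ x, |centred γ ψ n (randProd n x) v| ∂(Measure.infinitePi fun _ : ℕ => μ) ≤ M := by
  set π := Measure.infinitePi fun _ : ℕ => μ
  obtain ⟨C, hC0, hC⟩ := exists_abs_log_apply_le (E := E)
  have hb : Integrable (fun x => C + n * |γ| + 2 * ‖ψ‖ +
      finrank ℝ E * Real.log ‖randProd n x‖) π :=
    (integrable_const _).add ((integrable_log_randProd μ hμ hint n).const_mul _)
  have hle : ∀ v : Sph E, ∀ᵐ x ∂π, ‖centred γ ψ n (randProd n x) v‖ ≤
      C + n * |γ| + 2 * ‖ψ‖ + finrank ℝ E * Real.log ‖randProd n x‖ := fun v =>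
    (ae_all_unitDet μ hμ).mono fun x hx => by
      have h1 := abs_le.1 (hC _ (randProd_mem_unitDet hx n) v (norm_eq_of_mem_sphere v))
      have h2 := abs_le.1 (Real.norm_eq_abs _ ▸ ψ.norm_coe_le_norm (act (randProd n x) v))
      have h3 := abs_le.1 (Real.norm_eq_abs _ ▸ ψ.norm_coe_le_norm v)
      have h4 := abs_le.1 (le_of_eq (abs_mul (n : ℝ) γ))
      rw [Nat.abs_cast] at h4
      rw [centred, Real.norm_eq_abs, abs_le]
      constructor <;> linarith
  refine ⟨|∫ x, C + n * |γ| + 2 * ‖ψ‖ + finrank ℝ E * Real.log ‖randProd n x‖ ∂π|, abs_nonneg _,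
    fun v => ?_⟩
  have hi := hb.mono' (measurable_centred γ ψ n (measurable_randProd n)
    measurable_const).aestronglyMeasurable (hle v)
  exact ⟨hi, (integral_mono_ae hi.abs hb (hle v)).trans (le_abs_self _)⟩

/-- A small twist is close to no twist. -/
theorem exists_norm_twist_sub_le (hμ : ∀ᵐ A ∂μ, A ∈ unitDet E)
    (hint : Integrable (fun A => Real.log ‖A‖) μ) (m : ℕ) :
    ∃ M : ℝ, 0 ≤ M ∧ ∀ (s : ℝ) (f : Sph E →ᵇ ℝ) (v : Sph E),
      ‖twist μ γ ψ s m f v - ((stepOp hμ)^[m] f v : ℝ)‖ ≤ |s| * ‖f‖ * M := by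
  set π := Measure.infinitePi fun _ : ℕ => μ
  obtain ⟨M, hM0, hM⟩ := exists_integral_abs_centred_le γ ψ hμ hint m
  refine ⟨M, hM0, fun s f v => ?_⟩
  obtain ⟨hi, hle⟩ := hM v
  have h1 : Integrable (fun x => Complex.exp ((s * centred γ ψ m (randProd m x) v : ℝ) * I) *
      (f (act (randProd m x) v) : ℂ)) π := Integrable.of_bound
    (measurable_twistKernel γ ψ s m f (measurable_randProd m) measurable_const).aestronglyMeasurable
    ‖f‖ (.of_forall fun _ => norm_twistKernel_le f _ _)
  have h2 : Integrable (fun x => (f (act (randProd m x) v) : ℂ)) π := Integrable.of_bound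
    (Complex.measurable_ofReal.comp (f.continuous.measurable.comp
      (measurable_act_pair (measurable_randProd m) measurable_const))).aestronglyMeasurable
    ‖f‖ (.of_forall fun _ => by rw [Complex.norm_real]; exact f.norm_coe_le_norm _)
  rw [twist, stepOp_iterate_apply μ hμ, ← integral_complex_ofReal, ← integral_sub h1 h2]
  refine (norm_integral_le_of_norm_le ((hi.abs.const_mul (|s| * ‖f‖)))
    (.of_forall fun x => ?_)).trans ?_
  · set y := centred γ ψ m (randProd m x) v
    rw [← sub_one_mul, norm_mul, Complex.norm_real, mul_comm ((s * y : ℝ) : ℂ) I,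
      mul_right_comm |s|, ← abs_mul]
    exact mul_le_mul Real.norm_exp_I_mul_ofReal_sub_one_le (f.norm_coe_le_norm _)
      (norm_nonneg _) (abs_nonneg _)
  · rw [integral_const_mul]
    exact mul_le_mul_of_nonneg_left hle (by positivity)

/-- Late twisted iterates of a function with small iterates are small. -/
theorem norm_twist_le_of_late (hμ : ∀ᵐ A ∂μ, A ∈ unitDet E) (f : Sph E →ᵇ ℝ) {m k : ℕ}
    (hk : m ≤ k) {η : ℝ} (hη : ∀ v : Sph E, ‖twist μ γ ψ s m f v‖ ≤ η) (v : Sph E) :
    ‖twist μ γ ψ s k f v‖ ≤ η := by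
  obtain ⟨j, rfl⟩ := Nat.exists_eq_add_of_le' hk
  rw [twist_add γ ψ s hμ]
  refine (norm_integral_le_of_norm_le_const (.of_forall fun A => ?_)).trans_eq
    (by rw [probReal_univ, mul_one])
  rw [norm_mul, Complex.norm_exp_ofReal_mul_I, one_mul]
  exact hη _

variable {ε : ℝ}

/-- **One step of the twisted operator.** -/
theorem exists_norm_twist_one_sub_le (hμ : ∀ᵐ A ∂μ, A ∈ unitDet E) (hε : 0 < ε)
    (hexp : ExpMoment μ ε) (hmean : ∀ v : Sph E, ∫ A, increment γ ψ A v ∂μ = 0)
    (V : Sph E →ᵇ ℝ) (hV : ∀ v, V v = ∫ A, increment γ ψ A v ^ 2 ∂μ) :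
    ∃ M : ℝ, 0 ≤ M ∧ ∀ (s : ℝ) (v : Sph E),
      ‖twist μ γ ψ s 1 (BoundedContinuousFunction.const _ 1) v -
        ((1 - s ^ 2 * V v / 2 : ℝ) : ℂ)‖ ≤ |s| ^ 3 * M := by
  obtain ⟨K₁, hK₁0, hK₁⟩ := exists_pow_increment_le (E := E) hε γ ψ 1
  obtain ⟨K₂, hK₂0, hK₂⟩ := exists_pow_increment_le (E := E) hε γ ψ 2
  obtain ⟨K₃, hK₃0, hK₃⟩ := exists_pow_increment_le (E := E) hε γ ψ 3
  refine ⟨4 * (K₃ * ∫ A, ‖A‖ ^ ε ∂μ), mul_nonneg (by norm_num) (mul_nonneg hK₃0
    (integral_nonneg fun A => Real.rpow_nonneg (norm_nonneg A) _)), fun s v => ?_⟩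
  have hDm : Measurable fun A : E →L[ℝ] E => increment γ ψ A v :=
    measurable_increment γ ψ measurable_id measurable_const
  set D := fun A : E →L[ℝ] E => increment γ ψ A v with hD
  have h1 : Integrable D μ := integrable_of_le hμ hexp hDm.aestronglyMeasurable hK₁0 le_rfl
    fun A hA => by simpa using hK₁ A hA v
  have h2 : Integrable (fun A => D A ^ 2) μ :=
    integrable_of_le hμ hexp (hDm.pow_const 2).aestronglyMeasurable hK₂0 le_rfl fun A hA => by
      rw [norm_pow, Real.norm_eq_abs]; exact hK₂ A hA v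
  have hem : Measurable fun A => Complex.exp (((s * D A : ℝ) : ℂ) * I) :=
    Complex.continuous_exp.measurable.comp
      ((Complex.measurable_ofReal.comp (hDm.const_mul s)).mul_const I)
  have he : Integrable (fun A => Complex.exp (((s * D A : ℝ) : ℂ) * I)) μ :=
    Integrable.of_bound hem.aestronglyMeasurable 1
      (.of_forall fun A => (Complex.norm_exp_ofReal_mul_I _).le)
  have hp : Integrable (fun A => ((1 : ℂ) + ((s * D A : ℝ) : ℂ) * I -
      ((s ^ 2 * D A ^ 2 / 2 : ℝ) : ℂ))) μ :=
    ((integrable_const _).add (((h1.const_mul s).ofReal).mul_const I)).sub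
      ((h2.const_mul (s ^ 2)).div_const 2).ofReal
  have hone : twist μ γ ψ s 1 (BoundedContinuousFunction.const _ 1) v =
      ∫ A, Complex.exp (((s * D A : ℝ) : ℂ) * I) ∂μ := by
    rw [twist]
    simp only [BoundedContinuousFunction.const_apply, Complex.ofReal_one, mul_one, centred_one]
    conv_rhs => rw [← (measurePreserving_eval_infinitePi (fun _ : ℕ => μ) 0).map_eq]
    rw [integral_map (φ := fun x : ℕ → E →L[ℝ] E => x 0)
      (f := fun A => Complex.exp (((s * D A : ℝ) : ℂ) * I))
      (measurable_pi_apply 0).aemeasurable hem.aestronglyMeasurable]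
    simp only [randProd_one, hD]
  have hpoly : ∫ A, ((1 : ℂ) + ((s * D A : ℝ) : ℂ) * I - ((s ^ 2 * D A ^ 2 / 2 : ℝ) : ℂ)) ∂μ =
      ((1 - s ^ 2 * V v / 2 : ℝ) : ℂ) := by
    rw [integral_sub (f := fun A => (1 : ℂ) + ((s * D A : ℝ) : ℂ) * I)
        (g := fun A => ((s ^ 2 * D A ^ 2 / 2 : ℝ) : ℂ))
        ((integrable_const _).add (((h1.const_mul s).ofReal).mul_const I))
        ((h2.const_mul (s ^ 2)).div_const 2).ofReal,
      integral_add (f := fun _ => (1 : ℂ)) (g := fun A => ((s * D A : ℝ) : ℂ) * I)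
        (integrable_const _) (((h1.const_mul s).ofReal).mul_const I),
      integral_mul_const, integral_complex_ofReal, integral_complex_ofReal, integral_const_mul,
      integral_div, integral_const_mul, integral_const, probReal_univ, one_smul, hV v]
    simp only [hD, hmean v, mul_zero, Complex.ofReal_zero, zero_mul, add_zero]
    push_cast
    ring
  rw [hone, ← hpoly, ← integral_sub he hp]
  have h3 : Integrable (fun A => |D A| ^ 3) μ :=
    integrable_of_le hμ hexp (hDm.norm.pow_const 3).aestronglyMeasurable hK₃0 le_rfl fun A hA => by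
      rw [Real.norm_of_nonneg (pow_nonneg (abs_nonneg _) 3)]; exact hK₃ A hA v
  refine (norm_integral_le_of_norm_le (h3.const_mul (4 * |s| ^ 3))
    (.of_forall fun A => ?_)).trans ?_
  · refine le_of_eq_of_le (congrArg norm ?_)
      ((norm_expRem_le (s * D A)).1.trans_eq (by rw [abs_mul, mul_pow, mul_assoc]))
    rw [expRem]
    push_cast
    ring
  · rw [integral_const_mul, ← integral_const_mul K₃, ← mul_assoc, mul_comm (|s| ^ 3) 4]
    exact mul_le_mul_of_nonneg_left (integral_mono_ae h3 (hexp.const_mul K₃)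
      (hμ.mono fun A hA => hK₃ A hA v)) (by positivity)

/-- The recursion of the characteristic function. -/
theorem norm_twist_succ_sub_le (hμ : ∀ᵐ A ∂μ, A ∈ unitDet E) (V : Sph E →ᵇ ℝ) {R : ℝ}
    (hR : ∀ w, ‖twist μ γ ψ s 1 (BoundedContinuousFunction.const _ 1) w -
      ((1 - s ^ 2 * V w / 2 : ℝ) : ℂ)‖ ≤ R) (σ2 : ℝ) (k : ℕ) (v : Sph E) :
    ‖twist μ γ ψ s (k + 1) (BoundedContinuousFunction.const _ 1) v -
      ((1 - s ^ 2 * σ2 / 2 : ℝ) : ℂ) * twist μ γ ψ s k (BoundedContinuousFunction.const _ 1) v‖ ≤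
      s ^ 2 / 2 * ‖twist μ γ ψ s k (V - BoundedContinuousFunction.const _ σ2) v‖ + R := by
  set β := blockLaw μ k
  set e : (E →L[ℝ] E) → ℂ := fun A => Complex.exp ((s * centred γ ψ k A v : ℝ) * I) with he
  set one := BoundedContinuousFunction.const (Sph E) (1 : ℝ)
  set W := V - BoundedContinuousFunction.const _ σ2 with hW
  have hem : Measurable e := Complex.continuous_exp.measurable.comp
    ((Complex.measurable_ofReal.comp
      ((measurable_centred γ ψ k measurable_id measurable_const).const_mul s)).mul_const I)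
  have hen : ∀ A, ‖e A‖ = 1 := fun A => Complex.norm_exp_ofReal_mul_I _
  have hbase : ∀ f : Sph E →ᵇ ℝ,
      twist μ γ ψ s k f v = ∫ A, e A * (f (act A v) : ℂ) ∂β := fun f =>
    (integral_map (measurable_randProd k).aemeasurable
      (measurable_twistKernel γ ψ s k f measurable_id measurable_const).aestronglyMeasurable).symm
  have hact : Measurable fun A : E →L[ℝ] E => act A v :=
    measurable_act_pair measurable_id measurable_const
  have hint : ∀ f : Sph E →ᵇ ℝ, Integrable (fun A => e A * (f (act A v) : ℂ)) β := fun f =>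
    Integrable.of_bound (hem.mul (Complex.measurable_ofReal.comp
      (f.continuous.measurable.comp hact))).aestronglyMeasurable ‖f‖ (.of_forall fun A => by
        rw [norm_mul, hen, one_mul, Complex.norm_real]; exact f.norm_coe_le_norm _)
  have htw : Measurable fun A : E →L[ℝ] E => twist μ γ ψ s 1 one (act A v) :=
    ((measurable_twistKernel γ ψ s 1 one ((measurable_randProd 1).comp measurable_snd)
      (hact.comp measurable_fst)).stronglyMeasurable.integral_prod_right'
      (ν := Measure.infinitePi fun _ : ℕ => μ)).measurable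
  have h1 : Integrable (fun A => e A * twist μ γ ψ s 1 one (act A v)) β :=
    Integrable.of_bound (hem.mul htw).aestronglyMeasurable ‖one‖ (.of_forall fun A => by
      rw [norm_mul, hen, one_mul]; exact norm_twist_le γ ψ s 1 one _)
  set c : ℂ := ((1 - s ^ 2 * σ2 / 2 : ℝ) : ℂ)
  set G : (E →L[ℝ] E) → ℂ := fun A => e A * (twist μ γ ψ s 1 one (act A v) -
    ((1 - s ^ 2 * V (act A v) / 2 : ℝ) : ℂ)) with hG
  have hGi : Integrable G β := Integrable.of_bound (hem.mul (htw.sub
    (Complex.measurable_ofReal.comp ((((V.continuous.measurable.comp hact).const_mul (s ^ 2)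
      ).div_const 2).const_sub 1)))).aestronglyMeasurable R (.of_forall fun A => by
        rw [hG, norm_mul, hen, one_mul]; exact hR _)
  have hkey : twist μ γ ψ s (k + 1) one v - c * twist μ γ ψ s k one v =
      -((s ^ 2 / 2 : ℝ) : ℂ) * twist μ γ ψ s k W v + ∫ A, G A ∂β := by
    rw [twist_add γ ψ s hμ one k 1 v, hbase one, hbase W, ← integral_const_mul,
      ← integral_const_mul, ← integral_sub h1 ((hint one).const_mul c),
      ← integral_add ((hint W).const_mul _) hGi]
    refine integral_congr_ae (.of_forall fun A => ?_)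
    simp only [hG, he, c, hW, one, BoundedContinuousFunction.const_apply,
      BoundedContinuousFunction.coe_sub, Pi.sub_apply]
    push_cast
    ring
  rw [hkey]
  refine (norm_add_le _ _).trans (add_le_add (le_of_eq ?_) ?_)
  · rw [norm_mul, norm_neg, Complex.norm_real, Real.norm_of_nonneg (by positivity)]
  · exact (norm_integral_le_of_norm_le_const (.of_forall fun A => by
      rw [hG, norm_mul, hen, one_mul]; exact hR _)).trans_eq (by rw [probReal_univ, mul_one])

end FA.LePage
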