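import Fermat.Agent.LePage.Poisson

/-!
# The variance in one step

The mean square of the martingale increment is a Hölder function of the direction.
-/

set_option autoImplicit false

noncomputable section

namespace FA.LePage

open MeasureTheory Filter Topology Module Set
open FA.FurstenbergLyapunov FA.FurstenbergKifer FA.GuivarchRaugi
open scoped BoundedContinuousFunction

variable {E : Type*} [NormedAddCommGroup E] [InnerProductSpace ℝ E] [FiniteDimensional ℝ E]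
  [MeasurableSpace E] [BorelSpace E] [Nontrivial E]

/-- **The increment is Hölder in the direction.** -/
theorem exists_increment_holder (hd : 2 ≤ finrank ℝ E) (γ : ℝ) {ψ : Sph E →ᵇ ℝ} {L α : ℝ}
    (hL : 0 ≤ L) (hψ : HolderProj ψ L α) (hα : 0 < α) (hα1 : α ≤ 1) :
    ∃ K : ℝ, 0 ≤ K ∧ ∀ A ∈ unitDet E, ∀ v w : Sph E,
      |increment γ ψ A v - increment γ ψ A w| ≤
        K * ‖A‖ ^ (α * (2 + 2 * finrank ℝ E)) * sineDist v w ^ α := by
  obtain ⟨K, hK0, hK⟩ := exists_log_holder (E := E) hα hα1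
  obtain ⟨a, ha, hX⟩ := exists_abs_distFactor_le (E := E) hd
  refine ⟨K + L * Real.exp (α * a) + L, by positivity, fun A hA v w => ?_⟩
  have h1 := one_le_norm hA
  have h0 : 0 < ‖A‖ := one_pos.trans_le h1
  set δ := sineDist v w ^ α
  have hδ : 0 ≤ δ := Real.rpow_nonneg (sineDist_nonneg v w) _
  set b : ℝ := 2 + 2 * (finrank ℝ E : ℕ)
  have hb : (finrank ℝ E : ℝ) + 2 ≤ b := by
    have : (0 : ℝ) ≤ finrank ℝ E := Nat.cast_nonneg _
    simp only [b]; linarith
  set N := ‖A‖ ^ (α * b)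
  have hN : 1 ≤ N := Real.one_le_rpow h1 (by positivity)
  have e1 : |Real.log ‖A (v : E)‖ - Real.log ‖A (w : E)‖| ≤ K * N * δ :=
    (hK A hA v w).trans (mul_le_mul_of_nonneg_right (mul_le_mul_of_nonneg_left
      (Real.rpow_le_rpow_of_exponent_le h1 (mul_le_mul_of_nonneg_left hb hα.le)) hK0) hδ)
  have e2 : |ψ (act A v) - ψ (act A w)| ≤ L * Real.exp (α * a) * N * δ := by
    refine (hψ _ _).trans ?_
    refine (mul_le_mul_of_nonneg_left (Real.rpow_le_rpow (sineDist_nonneg _ _)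
      (sineDist_act_le hd hA v w) hα.le) hL).trans ?_
    rw [Real.mul_rpow (sineDist_nonneg v w) (Real.exp_pos _).le, ← Real.exp_mul, mul_assoc L,
      mul_assoc L, mul_comm (Real.exp (α * a) * N) δ]
    refine mul_le_mul_of_nonneg_left (mul_le_mul_of_nonneg_left ?_ hδ) hL
    simp only [N]
    rw [Real.rpow_def_of_pos h0, ← Real.exp_add]
    refine Real.exp_le_exp.2 ?_
    have := mul_le_mul_of_nonneg_left ((le_abs_self _).trans (hX v w A hA)) hα.le
    simp only [b] at *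
    linarith
  have e3 : |ψ v - ψ w| ≤ L * N * δ :=
    (hψ v w).trans (mul_le_mul_of_nonneg_right (le_mul_of_one_le_right hL hN) hδ)
  calc |increment γ ψ A v - increment γ ψ A w|
      = |(Real.log ‖A (v : E)‖ - Real.log ‖A (w : E)‖) + (ψ (act A v) - ψ (act A w)) -
          (ψ v - ψ w)| := by rw [increment, increment]; congr 1; ring
    _ ≤ |Real.log ‖A (v : E)‖ - Real.log ‖A (w : E)‖| + |ψ (act A v) - ψ (act A w)| +
          |ψ v - ψ w| := (abs_sub _ _).trans (add_le_add (abs_add_le _ _) le_rfl)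
    _ ≤ _ := by linarith

variable {μ : Measure (E →L[ℝ] E)} [IsProbabilityMeasure μ] {ε : ℝ}

/-- Powers of the increment are below the moment. -/
theorem exists_pow_increment_le (hε : 0 < ε) (γ : ℝ) (ψ : Sph E →ᵇ ℝ) (k : ℕ) :
    ∃ K : ℝ, 0 ≤ K ∧ ∀ A ∈ unitDet E, ∀ v : Sph E, |increment γ ψ A v| ^ k ≤ K * ‖A‖ ^ ε := by
  obtain ⟨a, b, ha, hb, h⟩ := exists_abs_increment_le γ ψ
  obtain ⟨K, hK0, hK⟩ := exists_log_pow_le a b k hε
  exact ⟨K, hK0, fun A hA v =>
    (pow_le_pow_left₀ (abs_nonneg _) ((h A hA v).trans (le_abs_self _)) k).trans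
      (hK ‖A‖ (one_le_norm hA))⟩

omit [IsProbabilityMeasure μ] in
/-- **The variance is continuous and Hölder.** -/
theorem exists_variance (hd : 2 ≤ finrank ℝ E) (hμ : ∀ᵐ A ∂μ, A ∈ unitDet E) (hε : 0 < ε)
    (hexp : ExpMoment μ ε) (γ : ℝ) {ψ : Sph E →ᵇ ℝ} {L α : ℝ} (hL : 0 ≤ L)
    (hψ : HolderProj ψ L α) (hα : 0 < α) (hα1 : α ≤ 1)
    (hαε : α * (2 + 2 * finrank ℝ E) ≤ ε / 2) :
    ∃ (V : Sph E →ᵇ ℝ) (M : ℝ), 0 ≤ M ∧ HolderProj V M α ∧
      ∀ v, V v = ∫ A, increment γ ψ A v ^ 2 ∂μ := by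
  obtain ⟨K, hK0, hK⟩ := exists_increment_holder hd γ hL hψ hα hα1
  obtain ⟨K₂, hK₂0, hK₂⟩ := exists_pow_increment_le (E := E) hε γ ψ 2
  obtain ⟨K₁, hK₁0, hK₁⟩ := exists_pow_increment_le (E := E) (half_pos hε) γ ψ 1
  have hm : ∀ v, Measurable fun A : E →L[ℝ] E => increment γ ψ A v ^ 2 := fun v =>
    (measurable_increment γ ψ measurable_id measurable_const).pow_const 2
  have hsq : ∀ A ∈ unitDet E, ∀ v, ‖increment γ ψ A v ^ 2‖ ≤ K₂ * ‖A‖ ^ ε := fun A hA v => by
    rw [norm_pow, Real.norm_eq_abs]; exact hK₂ A hA v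
  have hcont := continuous_avgFun μ (φ := fun A v => increment γ ψ A v ^ 2) hμ
    (fun v => (hm v).aestronglyMeasurable) (fun A hA => (continuous_increment γ ψ hA).pow 2)
    (hexp.const_mul K₂) fun v => hμ.mono fun A hA => hsq A hA v
  refine ⟨BoundedContinuousFunction.mkOfCompact ⟨_, hcont⟩,
    K * (2 * K₁) * ∫ A, ‖A‖ ^ ε ∂μ, mul_nonneg (by positivity)
      (integral_nonneg fun A => Real.rpow_nonneg (norm_nonneg A) _), fun v w => ?_, fun v => rfl⟩
  show |(∫ A, increment γ ψ A v ^ 2 ∂μ) - ∫ A, increment γ ψ A w ^ 2 ∂μ| ≤ _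
  have hδ : 0 ≤ sineDist v w ^ α := Real.rpow_nonneg (sineDist_nonneg v w) _
  rw [← integral_sub (integrable_of_le hμ hexp (hm v).aestronglyMeasurable hK₂0 le_rfl
      fun A hA => hsq A hA v)
    (integrable_of_le hμ hexp (hm w).aestronglyMeasurable hK₂0 le_rfl fun A hA => hsq A hA w),
    ← Real.norm_eq_abs]
  refine (norm_integral_le_of_le hμ hexp (K := K * (2 * K₁) * sineDist v w ^ α)
    (mul_nonneg (by positivity) hδ) le_rfl fun A hA => ?_).trans_eq (by ring)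
  have h0 : 0 < ‖A‖ := one_pos.trans_le (one_le_norm hA)
  have hv := hK₁ A hA v
  have hw := hK₁ A hA w
  rw [pow_one] at hv hw
  rw [sq_sub_sq, norm_mul, Real.norm_eq_abs, Real.norm_eq_abs]
  calc |increment γ ψ A v + increment γ ψ A w| * |increment γ ψ A v - increment γ ψ A w|
      ≤ (2 * K₁ * ‖A‖ ^ (ε / 2)) * (K * ‖A‖ ^ (ε / 2) * sineDist v w ^ α) :=
        mul_le_mul ((abs_add_le _ _).trans (by linarith)) ((hK A hA v w).trans
          (mul_le_mul_of_nonneg_right (mul_le_mul_of_nonneg_left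
            (Real.rpow_le_rpow_of_exponent_le (one_le_norm hA) hαε) hK0) hδ))
          (abs_nonneg _) (by positivity)
    _ = K * (2 * K₁) * sineDist v w ^ α * (‖A‖ ^ (ε / 2) * ‖A‖ ^ (ε / 2)) := by ring
    _ = _ := by rw [← Real.rpow_add h0, add_halves]

end FA.LePage
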